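import Mathlib.Data.Matrix.Basis
import Mathlib.LinearAlgebra.Matrix.ToLin
import Mathlib.LinearAlgebra.Eigenspace.Triangularizable
import Mathlib.FieldTheory.IsAlgClosed.Basic
import Mathlib.LinearAlgebra.Dual.Lemmas
import Mathlib.Algebra.Algebra.Subalgebra.Basic

/-!
# Burnside's theorem in dimension two

`span_range_eq_top`: a monoid of `2 × 2` matrices over a field without a common eigenvector over
an algebraically closed extension spans all matrices.  It is applied to absolutely irreducible
residual representations in `DefRing.Setup`, modularity lifting and level lowering.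
-/

set_option autoImplicit false

open Matrix

namespace FLTAgent.DefRing

variable {G : Type} [Monoid G]

theorem span_range_eq_top_of_isAlgClosed {K : Type} [Field K] [IsAlgClosed K]
    (f : G →* Matrix (Fin 2) (Fin 2) K)
    (hf : ∀ v : Fin 2 → K, v ≠ 0 → ¬ ∀ σ, ∃ c : K, f σ *ᵥ v = c • v) :
    Submodule.span K (Set.range f) = ⊤ := by
  classical
  set B := Submodule.span K (Set.range f) with hB
  have hmem : ∀ σ, f σ ∈ B := fun σ => Submodule.subset_span ⟨σ, rfl⟩
  have hone : (1 : Matrix (Fin 2) (Fin 2) K) ∈ B := map_one f ▸ hmem 1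
  have hmul : ∀ x ∈ B, ∀ y ∈ B, x * y ∈ B := by
    intro x hx y hy
    induction hx using Submodule.span_induction with
    | mem x hx =>
      obtain ⟨σ, rfl⟩ := hx
      induction hy using Submodule.span_induction with
      | mem y hy => obtain ⟨τ, rfl⟩ := hy; rw [← map_mul]; exact hmem _
      | zero => simp
      | add _ _ _ _ h1 h2 => rw [mul_add]; exact add_mem h1 h2
      | smul c _ _ h => rw [mul_smul_comm]; exact Submodule.smul_mem _ c h
    | zero => simp
    | add _ _ _ _ h1 h2 => rw [add_mul]; exact add_mem h1 h2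
    | smul c _ _ h => rw [smul_mul_assoc]; exact Submodule.smul_mem _ c h
  -- an invariant subspace of dimension one is impossible
  have hinv : ∀ W : Submodule K (Fin 2 → K), W ≠ ⊥ → (∀ σ, ∀ v ∈ W, f σ *ᵥ v ∈ W) → W = ⊤ := by
    intro W hW hWinv
    apply Submodule.eq_top_of_finrank_eq
    have hle : Module.finrank K W ≤ 2 := W.finrank_le.trans (by simp)
    rw [Module.finrank_fin_fun]
    by_contra hne
    have h0 : Module.finrank K W ≠ 0 := fun h => hW (Submodule.finrank_eq_zero.mp h)
    have h1 : Module.finrank K W = 1 := by omega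
    obtain ⟨v, hv, hv'⟩ := finrank_eq_one_iff'.mp h1
    refine hf v.1 (fun h => hv (Subtype.ext h)) fun σ => ?_
    obtain ⟨c, hc⟩ := hv' ⟨_, hWinv σ v.1 v.2⟩
    exact ⟨c, (congr_arg Subtype.val hc).symm⟩
  -- some element of `B` is not a scalar
  have hns : ∃ σ, ∀ c : K, f σ ≠ c • 1 := by
    by_contra h
    push Not at h
    refine hf (Pi.single 0 1) (by simp) fun σ => ?_
    obtain ⟨c, hc⟩ := h σ
    exact ⟨c, by rw [hc, Matrix.smul_mulVec, Matrix.one_mulVec]⟩
  obtain ⟨σ₀, hσ₀⟩ := hns
  obtain ⟨μ, hμ⟩ := Module.End.exists_eigenvalue (Matrix.toLin' (f σ₀))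
  obtain ⟨v₀, hv₀⟩ := hμ.exists_hasEigenvector
  set C := f σ₀ - μ • 1 with hC
  have hCB : C ∈ B := sub_mem (hmem _) (Submodule.smul_mem _ _ hone)
  have hC0 : C ≠ 0 := fun h => hσ₀ μ (sub_eq_zero.mp h)
  have hCv : C *ᵥ v₀ = 0 := by
    have := hv₀.apply_eq_smul
    rw [Matrix.toLin'_apply] at this
    rw [hC, Matrix.sub_mulVec, this, Matrix.smul_mulVec, Matrix.one_mulVec, sub_self]
  -- `C` has rank one
  have hrank : ∃ u φ : Fin 2 → K, u ≠ 0 ∧ φ ≠ 0 ∧ C = vecMulVec u φ := by
    have hker : 1 ≤ Module.finrank K (Matrix.toLin' C).ker := by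
      rw [Nat.one_le_iff_ne_zero, Ne, Submodule.finrank_eq_zero]
      intro h
      exact hv₀.2 ((Submodule.eq_bot_iff _).mp h v₀ (by simpa using hCv))
    have hsum := (Matrix.toLin' C).finrank_range_add_finrank_ker
    rw [Module.finrank_fin_fun] at hsum
    have hr0 : Module.finrank K (Matrix.toLin' C).range ≠ 0 := by
      rw [Ne, Submodule.finrank_eq_zero, LinearMap.range_eq_bot]
      intro h
      exact hC0 (Matrix.toLin'.map_eq_zero_iff.mp h)
    obtain ⟨u, hu, hu'⟩ := finrank_eq_one_iff'.mp
      (show Module.finrank K (Matrix.toLin' C).range = 1 by omega)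
    choose φ hφ using fun j => hu' ⟨_, LinearMap.mem_range_self (Matrix.toLin' C) (Pi.single j 1)⟩
    have hCe : C = vecMulVec u.1 φ := by
      ext i j
      have := congr_fun (congr_arg Subtype.val (hφ j)) i
      simp [Matrix.mulVec_single] at this
      rw [vecMulVec_apply, ← this, mul_comm]
    refine ⟨u.1, φ, fun h => hu (Subtype.ext h), ?_, hCe⟩
    rintro rfl
    exact hC0 (by simpa using hCe)
  obtain ⟨u, φ, hu, hφ, hCe⟩ := hrank
  -- all rank one matrices lie in `B`
  have hcol : Submodule.span K (Set.range fun σ => f σ *ᵥ u) = ⊤ := by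
    refine hinv _ ?_ ?_
    · rw [Submodule.ne_bot_iff]
      exact ⟨u, Submodule.subset_span ⟨1, by simp⟩, hu⟩
    · intro σ v hv
      induction hv using Submodule.span_induction with
      | mem v hv =>
        obtain ⟨τ, rfl⟩ := hv
        rw [Matrix.mulVec_mulVec, ← map_mul]
        exact Submodule.subset_span ⟨_, rfl⟩
      | zero => simp
      | add _ _ _ _ h1 h2 => rw [Matrix.mulVec_add]; exact add_mem h1 h2
      | smul c _ _ h => rw [Matrix.mulVec_smul]; exact Submodule.smul_mem _ c h
  have hrow : Submodule.span K (Set.range fun σ => φ ᵥ* f σ) = ⊤ := by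
    set T := Submodule.span K (Set.range fun σ => φ ᵥ* f σ) with hT
    -- the orthogonal of `T` is invariant
    let W : Submodule K (Fin 2 → K) :=
      { carrier := {v | ∀ σ, (φ ᵥ* f σ) ⬝ᵥ v = 0}
        add_mem' := fun h1 h2 σ => by simp [dotProduct_add, h1 σ, h2 σ]
        zero_mem' := fun σ => by simp
        smul_mem' := fun c v h σ => by simp [dotProduct_smul, h σ] }
    have hWinv : ∀ σ, ∀ v ∈ W, f σ *ᵥ v ∈ W := fun σ v hv τ => by
      rw [dotProduct_mulVec, Matrix.vecMul_vecMul, ← map_mul]; exact hv _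
    have hW : W = ⊥ := by
      by_contra h
      have htop := hinv W h hWinv
      refine hφ (funext fun i => ?_)
      have : (Pi.single i 1 : Fin 2 → K) ∈ W := htop ▸ Submodule.mem_top
      simpa using this 1
    by_contra hne
    obtain ⟨g, hg0, hg⟩ := Submodule.exists_dual_map_eq_bot_of_lt_top
      (lt_top_iff_ne_top.mpr hne) inferInstance
    let v : Fin 2 → K := fun i => g (Pi.single i 1)
    have hgv : ∀ w, g w = w ⬝ᵥ v := by
      intro w
      conv_lhs => rw [← Finset.univ_sum_single w]
      simp only [map_sum, dotProduct]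
      refine Finset.sum_congr rfl fun i _ => ?_
      rw [← smul_eq_mul, ← map_smul]
      congr 1
      ext j; simp [Pi.single_apply]
    have hv : v ∈ W := fun σ => by
      rw [← hgv]
      have : g (φ ᵥ* f σ) ∈ T.map g := Submodule.mem_map_of_mem (Submodule.subset_span ⟨σ, rfl⟩)
      simpa [hg] using this
    rw [hW, Submodule.mem_bot] at hv
    exact hg0 (LinearMap.ext fun w => by simp [hgv w, hv])
  have hall : ∀ x y : Fin 2 → K, vecMulVec x y ∈ B := by
    intro x y
    have hx : x ∈ Submodule.span K (Set.range fun σ => f σ *ᵥ u) := hcol ▸ Submodule.mem_top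
    induction hx using Submodule.span_induction with
    | mem x hx =>
      obtain ⟨σ, rfl⟩ := hx
      have hy : y ∈ Submodule.span K (Set.range fun σ => φ ᵥ* f σ) := hrow ▸ Submodule.mem_top
      induction hy using Submodule.span_induction with
      | mem y hy =>
        obtain ⟨τ, rfl⟩ := hy
        rw [← Matrix.vecMulVec_mul, ← Matrix.mul_vecMulVec, ← hCe]
        exact hmul _ (hmul _ (hmem _) _ hCB) _ (hmem _)
      | zero => simp
      | add _ _ _ _ h1 h2 => rw [vecMulVec_add]; exact add_mem h1 h2
      | smul c _ _ h => rw [vecMulVec_smul]; exact Submodule.smul_mem _ c h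
    | zero => simp
    | add _ _ _ _ h1 h2 => rw [add_vecMulVec]; exact add_mem h1 h2
    | smul c _ _ h => rw [smul_vecMulVec]; exact Submodule.smul_mem _ c h
  rw [eq_top_iff]
  intro M _
  rw [Matrix.matrix_eq_sum_single M]
  refine Submodule.sum_mem _ fun i _ => Submodule.sum_mem _ fun j _ => ?_
  have : Matrix.single i j (M i j) = vecMulVec (Pi.single i (M i j)) (Pi.single j 1) := by
    ext a b
    rcases eq_or_ne i a with rfl | ha <;> rcases eq_or_ne j b with rfl | hb <;>
      simp [Matrix.single, vecMulVec_apply, *, Ne.symm]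
  rw [this]
  exact hall _ _

/-- The descent of `span_range_eq_top_of_isAlgClosed`. -/
theorem span_range_eq_top {k : Type} [Field k] {K : Type} [Field K] [IsAlgClosed K]
    (i : k →+* K) (f : G →* Matrix (Fin 2) (Fin 2) k)
    (hf : ∀ v : Fin 2 → K, v ≠ 0 → ¬ ∀ σ, ∃ c : K, (f σ).map i *ᵥ v = c • v) :
    Submodule.span k (Set.range f) = ⊤ := by
  classical
  let F : G →* Matrix (Fin 2) (Fin 2) K := i.mapMatrix.toMonoidHom.comp f
  have hF := span_range_eq_top_of_isAlgClosed F hf
  by_contra hne
  obtain ⟨g, hg0, hg⟩ := Submodule.exists_dual_map_eq_bot_of_lt_top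
    (lt_top_iff_ne_top.mpr hne) inferInstance
  have hg' : ∀ σ, g (f σ) = 0 := fun σ => by
    have : g (f σ) ∈ (Submodule.span k (Set.range f)).map g :=
      Submodule.mem_map_of_mem (Submodule.subset_span ⟨σ, rfl⟩)
    simpa [hg] using this
  have hexp : ∀ M : Matrix (Fin 2) (Fin 2) k,
      g M = ∑ a, ∑ b, M a b * g (Matrix.single a b 1) := by
    intro M
    conv_lhs => rw [Matrix.matrix_eq_sum_single M]
    simp only [map_sum]
    refine Finset.sum_congr rfl fun a _ => Finset.sum_congr rfl fun b _ => ?_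
    rw [← smul_eq_mul, ← map_smul, Matrix.smul_single, smul_eq_mul, mul_one]
  let g' : Matrix (Fin 2) (Fin 2) K →ₗ[K] K :=
    { toFun := fun M => ∑ a, ∑ b, M a b * i (g (Matrix.single a b 1))
      map_add' := fun M N => by simp [add_mul, Finset.sum_add_distrib]
      map_smul' := fun c M => by simp [mul_assoc, mul_add] }
  have hle : Submodule.span K (Set.range F) ≤ g'.ker := by
    rw [Submodule.span_le]
    rintro _ ⟨σ, rfl⟩
    show ∑ a, ∑ b, (F σ) a b * i (g (Matrix.single a b 1)) = 0
    simp only [F, MonoidHom.coe_comp, Function.comp_apply, RingHom.toMonoidHom_eq_coe,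
      MonoidHom.coe_coe, RingHom.mapMatrix_apply, Matrix.map_apply, ← map_mul, ← map_sum,
      ← hexp, hg', map_zero]
  apply hg0
  refine LinearMap.ext fun M => ?_
  have hM : M.map i ∈ g'.ker := hle (hF ▸ Submodule.mem_top)
  rw [LinearMap.mem_ker] at hM
  refine i.injective ?_
  rw [LinearMap.zero_apply, map_zero, hexp, ← hM]
  simp [g']

end FLTAgent.DefRing
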