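import Mathlib.RingTheory.TensorProduct.Free
import Mathlib.RingTheory.LocalRing.Module
import Mathlib.LinearAlgebra.Matrix.ToLinearEquiv
import Mathlib.LinearAlgebra.Dimension.OrzechProperty
import Fermat.Prelude.Def_GaloisRep_Adic

/-!
# Two-dimensional Galois representations as matrix representations

`MatRep A` is a homomorphism from the absolute Galois group of `ℚ` to `2 × 2` matrices over `A`,
with change of coefficients `mapRep` and continuity `MatCont`; `ofMatrix` and `matRep` translate
to and from `GaloisRepAdic`, and `resMatRep` from residual representations.  This is the common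
language of the deformation, modularity lifting and level lowering developments.
-/

set_option autoImplicit false

open IsLocalRing Module
open scoped TensorProduct Matrix

noncomputable section

namespace FLTAgent.DefRing

/-- The absolute Galois group of `ℚ`. -/
abbrev AbsGal : Type := AlgebraicClosure ℚ ≃ₐ[ℚ] AlgebraicClosure ℚ

/-- A matrix representation of the absolute Galois group. -/
abbrev MatRep (A : Type) [CommRing A] : Type := AbsGal →* Matrix (Fin 2) (Fin 2) A

variable {A B : Type} [CommRing A] [CommRing B]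

/-- Change of coefficients of a matrix representation. -/
def mapRep (φ : A →+* B) (M : MatRep A) : MatRep B := φ.mapMatrix.toMonoidHom.comp M

/-- The entries of a base changed representation. -/
theorem mapRep_apply (φ : A →+* B) (M : MatRep A) (σ : AbsGal) (i j : Fin 2) :
    mapRep φ M σ i j = φ (M σ i j) := rfl

/-- Base change of a matrix representation is entrywise. -/
theorem mapRep_eq_map (φ : A →+* B) (M : MatRep A) (σ : AbsGal) :
    mapRep φ M σ = (M σ).map φ := rfl

theorem mapRep_mapRep {C : Type} [CommRing C] (ψ : B →+* C) (φ : A →+* B) (M : MatRep A) :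
    mapRep ψ (mapRep φ M) = mapRep (ψ.comp φ) M := rfl

variable [IsLocalRing A] [IsLocalRing B]

/-- Adic continuity of a matrix representation. -/
def MatCont (M : MatRep A) : Prop :=
  ∀ n : ℕ, ∃ L : IntermediateField ℚ (AlgebraicClosure ℚ), FiniteDimensional ℚ L ∧
    ∀ σ : AbsGal, (∀ x ∈ L, σ x = x) → ∀ i j, (M σ - 1) i j ∈ maximalIdeal A ^ n

/-- Continuity of a matrix representation is kept under a local map of coefficients. -/
theorem MatCont.map {M : MatRep A} (h : MatCont M) (φ : A →+* B) (hφ : IsLocalHom φ) :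
    MatCont (mapRep φ M) := by
  intro n
  obtain ⟨L, hL, h1⟩ := h n
  refine ⟨L, hL, fun σ hσ i j => ?_⟩
  have hmap : (maximalIdeal A ^ n).map φ ≤ maximalIdeal B ^ n := by
    rw [Ideal.map_pow]
    exact Ideal.pow_right_mono (Ideal.map_le_iff_le_comap.mpr fun a ha =>
      Ideal.mem_comap.mpr (haveI := hφ; map_nonunit φ a ha)) n
  have := hmap (Ideal.mem_map_of_mem φ (h1 σ hσ i j))
  rw [Matrix.sub_apply] at this ⊢
  rw [map_sub] at this
  rw [mapRep_apply]
  convert this using 2
  rw [Matrix.one_apply, Matrix.one_apply]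
  split <;> simp

omit [IsLocalRing A] in
/-- The linear action attached to a matrix representation. -/
def linRep (M : MatRep A) : AbsGal →* Module.End A (Fin 2 → A) :=
  (Matrix.toLinAlgEquiv' : Matrix (Fin 2) (Fin 2) A ≃ₐ[A] _).toAlgHom.toMonoidHom.comp M

/-- The representation attached to a continuous matrix representation. -/
def ofMatrix (M : MatRep A) (hM : MatCont M) : GaloisRepAdic A where
  V := Fin 2 → A
  finrank_eq := Module.finrank_fin_fun A
  ρ := linRep M
  isAdicContinuous := by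
    intro n
    obtain ⟨L, hL, h1⟩ := hM n
    refine ⟨L, hL, fun σ hσ v => ?_⟩
    show M σ *ᵥ v - v ∈ _
    have : M σ *ᵥ v - v = (M σ - 1) *ᵥ v := by rw [Matrix.sub_mulVec, Matrix.one_mulVec]
    rw [this, ← Finset.univ_sum_single ((M σ - 1) *ᵥ v)]
    refine Submodule.sum_mem _ fun i _ => ?_
    have hi : ((M σ - 1) *ᵥ v) i ∈ maximalIdeal A ^ n := by
      rw [Matrix.mulVec, dotProduct]
      exact Ideal.sum_mem _ fun j _ => Ideal.mul_mem_right (v j) _ (h1 σ hσ i j)
    have hs : Pi.single i (((M σ - 1) *ᵥ v) i) =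
        (((M σ - 1) *ᵥ v) i) • (Pi.single i 1 : Fin 2 → A) := by
      ext j; rcases eq_or_ne j i with rfl | hj <;> simp [*]
    rw [hs]
    exact Submodule.smul_mem_smul hi Submodule.mem_top

/-- The standard basis of `ofMatrix`. -/
def stdBasis (M : MatRep A) (hM : MatCont M) : Basis (Fin 2) A (ofMatrix M hM).V :=
  Pi.basisFun A (Fin 2)

/-- The matrices of a representation in a basis. -/
def matRep (ρ : GaloisRepAdic A) (b : Basis (Fin 2) A ρ.V) : MatRep A :=
  (LinearMap.toMatrixAlgEquiv b).toAlgHom.toMonoidHom.comp ρ.ρ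

/-- The matrix representation in a basis is the matrix of the linear map. -/
theorem matRep_apply (ρ : GaloisRepAdic A) (b : Basis (Fin 2) A ρ.V) (σ : AbsGal) :
    matRep ρ b σ = LinearMap.toMatrix b b (ρ.ρ σ) := rfl

theorem matRep_ofMatrix (M : MatRep A) (hM : MatCont M) :
    matRep (ofMatrix M hM) (stdBasis M hM) = M := by
  refine MonoidHom.ext fun σ => ?_
  rw [matRep_apply]
  show LinearMap.toMatrix (Pi.basisFun A (Fin 2)) (Pi.basisFun A (Fin 2))
    (Matrix.toLin' (M σ)) = M σ
  rw [LinearMap.toMatrix_eq_toMatrix']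
  exact LinearMap.toMatrix'_toLin' _

/-- The matrices of a continuous representation in a basis are continuous. -/
theorem matCont_matRep (ρ : GaloisRepAdic A) (b : Basis (Fin 2) A ρ.V) :
    MatCont (matRep ρ b) := by
  intro n
  obtain ⟨L, hL, h1⟩ := ρ.isAdicContinuous n
  refine ⟨L, hL, fun σ hσ i j => ?_⟩
  have h := h1 σ hσ (b j)
  have hrepr : ∀ v ∈ (maximalIdeal A ^ n) • (⊤ : Submodule A ρ.V),
      b.repr v i ∈ maximalIdeal A ^ n := by
    intro v hv
    refine Submodule.smul_induction_on hv (fun a ha w _ => ?_) (fun x y hx hy => ?_)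
    · rw [map_smul, Finsupp.smul_apply, smul_eq_mul]; exact Ideal.mul_mem_right _ _ ha
    · rw [map_add, Finsupp.add_apply]; exact add_mem hx hy
  have := hrepr _ h
  rw [map_sub, Finsupp.sub_apply, Basis.repr_self] at this
  rw [Matrix.sub_apply, matRep_apply, LinearMap.toMatrix_apply]
  rw [Finsupp.single_apply] at this
  rw [Matrix.one_apply]
  simpa [eq_comm] using this

/-- Representations with the same matrices are equivalent. -/
theorem isEquiv_of_matRep_eq {ρ ρ' : GaloisRepAdic A} (b : Basis (Fin 2) A ρ.V)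
    (b' : Basis (Fin 2) A ρ'.V) (h : matRep ρ b = matRep ρ' b') : ρ.IsEquiv ρ' := by
  refine ⟨⟨b.equiv b' (_root_.Equiv.refl _), fun σ x => ?_⟩⟩
  have hσ : LinearMap.toMatrix b b (ρ.ρ σ) = LinearMap.toMatrix b' b' (ρ'.ρ σ) :=
    DFunLike.congr_fun h σ
  have key : (b.equiv b' (_root_.Equiv.refl _)).toLinearMap ∘ₗ ρ.ρ σ =
      ρ'.ρ σ ∘ₗ (b.equiv b' (_root_.Equiv.refl _)).toLinearMap := by
    refine b.ext fun j => b'.repr.injective (Finsupp.ext fun i => ?_)
    have e := congr_fun (congr_fun hσ i) j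
    rw [LinearMap.toMatrix_apply, LinearMap.toMatrix_apply] at e
    simp only [LinearMap.comp_apply, LinearEquiv.coe_coe, Basis.equiv_apply, Equiv.refl_apply]
    rw [← e]
    simp [Basis.equiv]
  exact LinearMap.congr_fun key x

theorem isEquiv_ofMatrix_matRep (ρ : GaloisRepAdic A) (b : Basis (Fin 2) A ρ.V) :
    ρ.IsEquiv (ofMatrix (matRep ρ b) (matCont_matRep ρ b)) :=
  isEquiv_of_matRep_eq b (stdBasis _ _) (matRep_ofMatrix _ _).symm

theorem matRep_baseChangeAlong (φ : A →+* B) (hφ : IsLocalHom φ) (ρ : GaloisRepAdic A)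
    (b : Basis (Fin 2) A ρ.V) :
    matRep (ρ.baseChangeAlong φ hφ)
      (letI := φ.toAlgebra; Algebra.TensorProduct.basis B b) = mapRep φ (matRep ρ b) := by
  let := φ.toAlgebra
  refine MonoidHom.ext fun σ => ?_
  exact LinearMap.toMatrix_baseChange B (ρ.ρ σ) b b

theorem isEquiv_baseChangeAlong_ofMatrix (φ : A →+* B) (hφ : IsLocalHom φ) (M : MatRep A)
    (hM : MatCont M) :
    ((ofMatrix M hM).baseChangeAlong φ hφ).IsEquiv (ofMatrix (mapRep φ M) (hM.map φ hφ)) := by
  refine isEquiv_of_matRep_eq (letI := φ.toAlgebra; Algebra.TensorProduct.basis B (stdBasis M hM))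
    (stdBasis _ _) ?_
  rw [matRep_baseChangeAlong, matRep_ofMatrix, matRep_ofMatrix]

/-- Equivalent matrix representations are conjugate. -/
theorem exists_conj_of_isEquiv {M M' : MatRep A} (hM : MatCont M) (hM' : MatCont M')
    (h : (ofMatrix M hM).IsEquiv (ofMatrix M' hM')) :
    ∃ P : Matrix (Fin 2) (Fin 2) A, IsUnit P ∧ ∀ σ, P * M σ = M' σ * P := by
  obtain ⟨e⟩ := h
  let f : (Fin 2 → A) ≃ₗ[A] (Fin 2 → A) := e.toLinearEquiv
  refine ⟨LinearMap.toMatrix' f.toLinearMap, ?_, fun σ => ?_⟩
  · refine IsUnit.of_mul_eq_one (LinearMap.toMatrix' f.symm.toLinearMap) ?_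
    rw [← LinearMap.toMatrix'_comp, show f.toLinearMap ∘ₗ f.symm.toLinearMap = LinearMap.id from
      LinearMap.ext fun x => f.apply_symm_apply x, LinearMap.toMatrix'_id]
  · apply Matrix.toLin'.injective
    rw [Matrix.toLin'_mul, Matrix.toLin'_mul, Matrix.toLin'_toMatrix']
    exact LinearMap.ext fun x => e.map_apply σ x

/-- Conjugate matrix representations are equivalent. -/
theorem isEquiv_of_conj {M M' : MatRep A} (hM : MatCont M) (hM' : MatCont M')
    (P : Matrix (Fin 2) (Fin 2) A) (hP : IsUnit P) (h : ∀ σ, P * M σ = M' σ * P) :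
    (ofMatrix M hM).IsEquiv (ofMatrix M' hM') := by
  obtain ⟨P, rfl⟩ := hP
  refine ⟨⟨(Matrix.toLinearEquiv' (P : Matrix (Fin 2) (Fin 2) A) P.invertible : _), fun σ x => ?_⟩⟩
  show (P : Matrix (Fin 2) (Fin 2) A) *ᵥ (M σ *ᵥ x) = M' σ *ᵥ ((P : Matrix (Fin 2) (Fin 2) A) *ᵥ x)
  have h2 : ∀ y : Fin 2 → A, ((P : Matrix (Fin 2) (Fin 2) A) * M σ) *ᵥ y =
      (M' σ * (P : Matrix (Fin 2) (Fin 2) A)) *ᵥ y := fun y => by rw [h]
  simp only [← Matrix.mulVec_mulVec] at h2
  exact h2 x

/-- A conjugate of a continuous matrix representation. -/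
theorem matCont_conj {M M' : MatRep A} (hM : MatCont M) (P : (Matrix (Fin 2) (Fin 2) A)ˣ)
    (h : ∀ σ, M' σ = P * M σ * (↑P⁻¹ : Matrix (Fin 2) (Fin 2) A)) : MatCont M' := by
  intro n
  obtain ⟨L, hL, h1⟩ := hM n
  refine ⟨L, hL, fun σ hσ i j => ?_⟩
  have e : M' σ - 1 = P * (M σ - 1) * (↑P⁻¹ : Matrix (Fin 2) (Fin 2) A) := by
    rw [h, mul_sub, sub_mul, mul_one, Units.mul_inv]
  rw [e, Matrix.mul_apply]
  refine Ideal.sum_mem _ fun l _ => Ideal.mul_mem_right _ _ ?_
  rw [Matrix.mul_apply]
  exact Ideal.sum_mem _ fun m _ => Ideal.mul_mem_left _ _ (h1 σ hσ m l)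

/-! ### Residual representations -/

/-- The matrices of a residual representation in a basis. -/
def resMatRep {k : Type} [Field k] (ρ : ResidualGaloisRep k) (b : Basis (Fin 2) k ρ.V) :
    MatRep k :=
  (LinearMap.toMatrixAlgEquiv b).toAlgHom.toMonoidHom.comp ρ.ρ

theorem resIsEquiv_of_matRep_eq {k : Type} [Field k] {ρ ρ' : ResidualGaloisRep k}
    (b : Basis (Fin 2) k ρ.V) (b' : Basis (Fin 2) k ρ'.V)
    (h : resMatRep ρ b = resMatRep ρ' b') : ρ.IsEquiv ρ' := by
  obtain ⟨e⟩ := isEquiv_of_matRep_eq (ρ := GaloisRepAdic.ofResidualGaloisRep ρ)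
    (ρ' := GaloisRepAdic.ofResidualGaloisRep ρ') b b' h
  exact ⟨⟨e.toLinearEquiv, e.map_apply⟩⟩

theorem resMatRep_residual (ρ : GaloisRepAdic A) (b : Basis (Fin 2) A ρ.V) :
    resMatRep ρ.residual (Algebra.TensorProduct.basis (ResidueField A) b) =
      mapRep (IsLocalRing.residue A) (matRep ρ b) := by
  refine MonoidHom.ext fun σ => ?_
  exact LinearMap.toMatrix_baseChange (ResidueField A) (ρ.ρ σ) b b

theorem resMatRep_baseChangeAlong {k k' : Type} [Field k] [Field k'] (i : k →+* k')
    (ρ : ResidualGaloisRep k) (b : Basis (Fin 2) k ρ.V) :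
    resMatRep (ρ.baseChangeAlong i) (letI := i.toAlgebra; Algebra.TensorProduct.basis k' b) =
      mapRep i (resMatRep ρ b) := by
  let := i.toAlgebra
  refine MonoidHom.ext fun σ => ?_
  exact LinearMap.toMatrix_baseChange k' (ρ.ρ σ) b b

/-- Residual equivalence to the base change of `ρbar` follows from equality of reduced matrices. -/
theorem residual_isEquiv_of_eq {k : Type} [Field k] (i : k →+* ResidueField A)
    (ρbar : ResidualGaloisRep k) (bb : Basis (Fin 2) k ρbar.V) (M : MatRep A) (hM : MatCont M)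
    (h : mapRep (IsLocalRing.residue A) M = mapRep i (resMatRep ρbar bb)) :
    (ofMatrix M hM).residual.IsEquiv (ρbar.baseChangeAlong i) := by
  refine resIsEquiv_of_matRep_eq
    (Algebra.TensorProduct.basis (ResidueField A) (stdBasis M hM))
    (letI := i.toAlgebra; Algebra.TensorProduct.basis (ResidueField A) bb) ?_
  rw [resMatRep_residual, resMatRep_baseChangeAlong, matRep_ofMatrix]
  exact h

/-- A representation residually equivalent to `ρbar` has matrices reducing to those of `ρbar`. -/
theorem exists_basis_of_residual_isEquiv {k : Type} [Field k] (i : k →+* ResidueField A)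
    (ρbar : ResidualGaloisRep k) (bb : Basis (Fin 2) k ρbar.V) (ρ : GaloisRepAdic A)
    (h : ρ.residual.IsEquiv (ρbar.baseChangeAlong i)) :
    ∃ b : Basis (Fin 2) A ρ.V,
      mapRep (IsLocalRing.residue A) (matRep ρ b) = mapRep i (resMatRep ρbar bb) := by
  obtain ⟨e⟩ := h
  let := i.toAlgebra
  let c : Basis (Fin 2) (ResidueField A) (ρbar.baseChangeAlong i).V :=
    Algebra.TensorProduct.basis (ResidueField A) bb
  let c' : Basis (Fin 2) (ResidueField A) (ResidueField A ⊗[A] ρ.V) :=
    c.map e.toLinearEquiv.symm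
  have hsurj : ∀ w : ResidueField A ⊗[A] ρ.V, ∃ v : ρ.V, (1 : ResidueField A) ⊗ₜ[A] v = w := by
    intro w
    induction w using TensorProduct.induction_on with
    | zero => exact ⟨0, TensorProduct.tmul_zero _ _⟩
    | tmul x v =>
      obtain ⟨a, rfl⟩ := IsLocalRing.residue_surjective x
      refine ⟨a • v, ?_⟩
      rw [TensorProduct.tmul_smul, TensorProduct.smul_tmul', Algebra.smul_def, mul_one]
      rfl
    | add x y hx hy =>
      obtain ⟨v, rfl⟩ := hx
      obtain ⟨v', rfl⟩ := hy
      exact ⟨v + v', TensorProduct.tmul_add _ _ _⟩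
  choose v hv using fun j => hsurj (c' j)
  have hspan : Submodule.span A (Set.range v) = ⊤ :=
    IsLocalRing.span_eq_top_of_tmul_eq_basis v c' hv
  let b := basisOfTopLeSpanOfCardEqFinrank v hspan.ge (by rw [ρ.finrank_eq, Fintype.card_fin])
  refine ⟨b, ?_⟩
  have hbc : Algebra.TensorProduct.basis (ResidueField A) b = c' := by
    refine Basis.eq_of_apply_eq fun j => ?_
    rw [Algebra.TensorProduct.basis_apply, coe_basisOfTopLeSpanOfCardEqFinrank, hv]
  rw [← resMatRep_residual, ← resMatRep_baseChangeAlong, hbc]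
  refine MonoidHom.ext fun σ => Matrix.ext fun p q => ?_
  refine (LinearMap.toMatrix_apply _ _ _ p q).trans
    (Eq.trans ?_ (LinearMap.toMatrix_apply _ _ _ p q).symm)
  show c.repr (e.toLinearEquiv (ρ.residual.ρ σ (e.toLinearEquiv.symm (c q)))) p =
    c.repr ((ρbar.baseChangeAlong i).ρ σ (c q)) p
  rw [e.map_apply, LinearEquiv.apply_symm_apply]

end FLTAgent.DefRing
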