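import Mathlib.RingTheory.Henselian
import Mathlib.Tactic.LinearCombination
import Mathlib.LinearAlgebra.Matrix.NonsingularInverse
import Fermat.Agent.DefRing.MatrixRep

/-!
# A rigid normal form for lifts of an absolutely irreducible representation

Fix combinations `X`, `Y` of group elements (`NormData`) which reduce to the elementary matrices
`E₀₀`, `E₁₀`.  A lift is normal if `X` is upper triangular and `Y` sends the first basis vector to
the second.  A normal form exists over complete rings (`exists_isNormal`) and is unique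
(`eq_of_conj_of_isNormal`), so deformations become honest matrix representations.
-/

set_option autoImplicit false

open IsLocalRing Matrix

noncomputable section

namespace FLTAgent.DefRing

variable {O : Type} [CommRing O] [IsLocalRing O]

/-- A linear combination of the values of a matrix valued function. -/
def comb {A : Type} [CommRing A] [Algebra O A] (c : AbsGal →₀ O)
    (M : AbsGal → Matrix (Fin 2) (Fin 2) A) : Matrix (Fin 2) (Fin 2) A :=
  c.sum fun σ a => a • M σ

/-- The data of the normalisation: a lift of the residual matrices, and the two combinations. -/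
structure NormData (O : Type) [CommRing O] [IsLocalRing O] where
  /-- Lifts to `O` of the residual matrices. -/
  r0 : AbsGal → Matrix (Fin 2) (Fin 2) O
  /-- Combination reducing to `E₀₀`. -/
  cX : AbsGal →₀ O
  /-- Combination reducing to `E₁₀`. -/
  cY : AbsGal →₀ O
  hX : ∀ i j, comb cX r0 i j - (Matrix.single 0 0 (1 : O)) i j ∈ maximalIdeal O
  hY : ∀ i j, comb cY r0 i j - (Matrix.single 1 0 (1 : O)) i j ∈ maximalIdeal O

variable (N : NormData O) {A B : Type} [CommRing A] [Algebra O A] [CommRing B] [Algebra O B]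

/-- The normalisation condition. -/
def IsNormal (M : MatRep A) : Prop :=
  comb N.cX M 1 0 = 0 ∧ comb N.cY M 0 0 = 0 ∧ comb N.cY M 1 0 = 1

/-- The matrices reduce to the residual ones. -/
def Reduces [IsLocalRing A] (M : MatRep A) : Prop :=
  ∀ σ i j, M σ i j - algebraMap O A (N.r0 σ i j) ∈ maximalIdeal A

omit [IsLocalRing O] in
theorem comb_apply (c : AbsGal →₀ O) (M : AbsGal → Matrix (Fin 2) (Fin 2) A) (i j : Fin 2) :
    comb c M i j = ∑ σ ∈ c.support, algebraMap O A (c σ) * M σ i j := by
  simp only [comb, Finsupp.sum, Matrix.sum_apply]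
  exact Finset.sum_congr rfl fun σ _ => Algebra.smul_def _ _

omit [IsLocalRing O] in
theorem comb_mapRep (φ : A →ₐ[O] B) (c : AbsGal →₀ O) (M : MatRep A) (i j : Fin 2) :
    comb c (mapRep (φ : A →+* B) M) i j = φ (comb c M i j) := by
  simp [comb_apply, mapRep_apply, map_sum, map_mul]

theorem IsNormal.map {M : MatRep A} (h : IsNormal N M) (φ : A →ₐ[O] B) :
    IsNormal N (mapRep (φ : A →+* B) M) :=
  ⟨by rw [comb_mapRep, h.1, map_zero], by rw [comb_mapRep, h.2.1, map_zero],
    by rw [comb_mapRep, h.2.2, map_one]⟩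

/-- Normality descends along injective maps. -/
theorem IsNormal.of_map {M : MatRep A} (φ : A →ₐ[O] B) (hφ : Function.Injective φ)
    (h : IsNormal N (mapRep (φ : A →+* B) M)) : IsNormal N M :=
  ⟨hφ (by rw [← comb_mapRep, h.1, map_zero]), hφ (by rw [← comb_mapRep, h.2.1, map_zero]),
    hφ (by rw [← comb_mapRep, h.2.2, map_one])⟩

theorem Reduces.map [IsLocalRing A] [IsLocalRing B] {M : MatRep A} (h : Reduces N M)
    (φ : A →ₐ[O] B) (hφ : IsLocalHom (φ : A →+* B)) : Reduces N (mapRep (φ : A →+* B) M) := by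
  intro σ i j
  have := hφ
  have h1 := map_nonunit (φ : A →+* B) _ (h σ i j)
  rw [map_sub] at h1
  simpa [mapRep_apply] using h1

theorem Reduces.of_map [IsLocalRing A] [IsLocalRing B] {M : MatRep A}
    (φ : A →ₐ[O] B) (h : Reduces N (mapRep (φ : A →+* B) M)) : Reduces N M := by
  intro σ i j hu
  refine h σ i j ?_
  have := hu.map φ
  simpa [mapRep_apply] using this

/-- A representation reduces to the normalised one iff its residues agree with it entrywise. -/
theorem Reduces.iff_residue [IsLocalRing A] (M : MatRep A) :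
    Reduces N M ↔ ∀ σ i j, IsLocalRing.residue A (M σ i j) =
      IsLocalRing.residue A (algebraMap O A (N.r0 σ i j)) := by
  refine forall_congr' fun σ => forall_congr' fun i => forall_congr' fun j => ?_
  rw [← residue_eq_zero_iff, map_sub, sub_eq_zero]

variable [IsLocalRing A] [IsLocalHom (algebraMap O A)]

omit [IsLocalHom (algebraMap O A)] in
theorem comb_sub_mem {M : MatRep A} (h : Reduces N M) (c : AbsGal →₀ O) (i j : Fin 2) :
    comb c M i j - algebraMap O A (comb c N.r0 i j) ∈ maximalIdeal A := by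
  rw [comb_apply, comb_apply, map_sum, ← Finset.sum_sub_distrib]
  refine Ideal.sum_mem _ fun σ _ => ?_
  rw [map_mul, Algebra.algebraMap_self_apply, ← mul_sub]
  exact Ideal.mul_mem_left _ _ (h σ i j)

theorem combX_sub_mem {M : MatRep A} (h : Reduces N M) (i j : Fin 2) :
    comb N.cX M i j - (Matrix.single 0 0 (1 : A)) i j ∈ maximalIdeal A := by
  have h1 := comb_sub_mem N h N.cX i j
  have h2 := map_nonunit (algebraMap O A) _ (N.hX i j)
  rw [map_sub] at h2
  have := add_mem h1 h2
  rw [sub_add_sub_cancel] at this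
  convert this using 2
  simp only [Matrix.single_apply]
  split <;> simp

theorem combY_sub_mem {M : MatRep A} (h : Reduces N M) (i j : Fin 2) :
    comb N.cY M i j - (Matrix.single 1 0 (1 : A)) i j ∈ maximalIdeal A := by
  have h1 := comb_sub_mem N h N.cY i j
  have h2 := map_nonunit (algebraMap O A) _ (N.hY i j)
  rw [map_sub] at h2
  have := add_mem h1 h2
  rw [sub_add_sub_cancel] at this
  convert this using 2
  simp only [Matrix.single_apply]
  split <;> simp

omit [IsLocalRing O] [IsLocalRing A] [IsLocalHom (algebraMap O A)] in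
theorem comb_intertwine (c : AbsGal →₀ O) {M M' : MatRep A} (P : Matrix (Fin 2) (Fin 2) A)
    (h : ∀ σ, P * M σ = M' σ * P) : P * comb c M = comb c M' * P := by
  simp only [comb, Finsupp.sum, Finset.mul_sum, Finset.sum_mul, mul_smul_comm, smul_mul_assoc, h]

/-- Two normal lifts which are conjugate are equal. -/
theorem eq_of_conj_of_isNormal {M M' : MatRep A} (hM : Reduces N M) (hM' : Reduces N M')
    (hn : IsNormal N M) (hn' : IsNormal N M') (P : Matrix (Fin 2) (Fin 2) A) (hP : IsUnit P)
    (h : ∀ σ, P * M σ = M' σ * P) : M = M' := by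
  have hX := comb_intertwine N.cX P h
  have hY := comb_intertwine N.cY P h
  set X := comb N.cX M with hXdef
  set X' := comb N.cX M' with hX'def
  set Y := comb N.cY M
  set Y' := comb N.cY M'
  obtain ⟨hX10, hY00, hY10⟩ : X 1 0 = 0 ∧ Y 0 0 = 0 ∧ Y 1 0 = 1 := hn
  obtain ⟨hX'10, hY'00, hY'10⟩ : X' 1 0 = 0 ∧ Y' 0 0 = 0 ∧ Y' 1 0 = 1 := hn'
  have e1 := congr_fun (congr_fun hX 1) 0
  rw [Matrix.mul_apply, Matrix.mul_apply, Fin.sum_univ_two, Fin.sum_univ_two] at e1
  rw [hX10, hX'10] at e1
  have hu : IsUnit (X 0 0 - X' 1 1) := by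
    have a := combX_sub_mem N hM 0 0
    have b := combX_sub_mem N hM' 1 1
    simp only [Matrix.single_apply, and_self, if_true, ← hXdef] at a
    simp [← hX'def] at b
    have : 1 - (X 0 0 - X' 1 1) ∈ maximalIdeal A := by
      have := add_mem (neg_mem a) ((mem_maximalIdeal _).mpr b)
      convert this using 1; ring
    by_contra hc
    exact (maximalIdeal A).ne_top_iff_one.mp (maximalIdeal.isMaximal A).ne_top
      (by simpa using add_mem this ((mem_maximalIdeal _).mpr hc))
  have hq : P 1 0 = 0 := by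
    refine (IsUnit.mul_left_eq_zero hu).mp ?_
    linear_combination e1
  have e2 := congr_fun (congr_fun hY 0) 0
  rw [Matrix.mul_apply, Matrix.mul_apply, Fin.sum_univ_two, Fin.sum_univ_two, hY00, hY'00, hY10,
    hq] at e2
  have e3 := congr_fun (congr_fun hY 1) 0
  rw [Matrix.mul_apply, Matrix.mul_apply, Fin.sum_univ_two, Fin.sum_univ_two, hY00, hY'10, hY10,
    hq] at e3
  have h01 : P 0 1 = 0 := by simpa using e2
  have h11 : P 1 1 = P 0 0 := by simpa using e3
  have hPs : P = P 0 0 • (1 : Matrix (Fin 2) (Fin 2) A) := by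
    ext i j; fin_cases i <;> fin_cases j <;> simp [hq, h01, h11]
  have hp : IsUnit (P 0 0) := by
    have := (Matrix.isUnit_iff_isUnit_det P).mp hP
    rw [Matrix.det_fin_two, h01, hq, h11, mul_zero, sub_zero] at this
    exact isUnit_of_mul_isUnit_left this
  refine MonoidHom.ext fun σ => ?_
  have := h σ
  rw [hPs] at this
  simp only [smul_mul_assoc, mul_smul_comm, one_mul, mul_one] at this
  exact (IsUnit.smul_left_cancel hp).mp this

/-- Existence of the normal form over complete rings. -/
theorem exists_isNormal [IsAdicComplete (maximalIdeal A) A] {M : MatRep A} (hc : MatCont M)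
    (hM : Reduces N M) :
    ∃ (M' : MatRep A) (hc' : MatCont M'), Reduces N M' ∧ IsNormal N M' ∧
      (ofMatrix M hc).IsEquiv (ofMatrix M' hc') := by
  set X := comb N.cX M with hXdef
  set Y := comb N.cY M with hYdef
  have hr : ∀ {x : A}, x ∈ maximalIdeal A → IsLocalRing.residue A x = 0 :=
    fun h => (residue_eq_zero_iff _).mpr h
  have res : ∀ {x y : A}, x - y ∈ maximalIdeal A →
      IsLocalRing.residue A x = IsLocalRing.residue A y := fun h =>
    sub_eq_zero.mp (by rw [← map_sub]; exact hr h)
  have a00 : IsLocalRing.residue A (X 0 0) = 1 := by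
    rw [res (combX_sub_mem N hM 0 0)]; simp
  have a01 : IsLocalRing.residue A (X 0 1) = 0 := by
    rw [res (combX_sub_mem N hM 0 1)]; simp
  have a10 : IsLocalRing.residue A (X 1 0) = 0 := by
    rw [res (combX_sub_mem N hM 1 0)]; simp
  have a11 : IsLocalRing.residue A (X 1 1) = 0 := by
    rw [res (combX_sub_mem N hM 1 1)]; simp
  have b00 : IsLocalRing.residue A (Y 0 0) = 0 := by
    rw [res (combY_sub_mem N hM 0 0)]; simp
  have b10 : IsLocalRing.residue A (Y 1 0) = 1 := by
    rw [res (combY_sub_mem N hM 1 0)]; simp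
  obtain ⟨u, hu⟩ : IsUnit (X 1 1 - X 0 0) := by
    apply isUnit_of_map_unit (IsLocalRing.residue A)
    rw [map_sub, a00, a11, zero_sub]
    exact isUnit_one.neg
  set e : A := X 0 1 * X 1 0 * (↑u⁻¹ * ↑u⁻¹) with hedef
  have he : e ∈ maximalIdeal A := by
    rw [← residue_eq_zero_iff, hedef]
    simp [a01]
  obtain ⟨t, ht, htm⟩ := (IsAdicComplete.henselianRing A (maximalIdeal A)).is_henselian
    (Polynomial.X ^ 2 - Polynomial.X - Polynomial.C e) (by monicity!) 0
    (by simpa using he) (by simp)
  have ht0 : IsLocalRing.residue A t = 0 := hr (by simpa using htm)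
  have hte : t ^ 2 - t = e := by
    simp only [Polynomial.IsRoot.def, Polynomial.eval_sub, Polynomial.eval_pow,
      Polynomial.eval_X, Polynomial.eval_C] at ht
    exact sub_eq_zero.mp ht
  obtain ⟨s, hs⟩ : IsUnit (1 - t) := by
    apply isUnit_of_map_unit (IsLocalRing.residue A)
    rw [map_sub, map_one, ht0, sub_zero]
    exact isUnit_one
  set z : A := -(X 1 0) * ↑u⁻¹ * ↑s⁻¹ with hzdef
  have hz0 : IsLocalRing.residue A z = 0 := by simp [hzdef, a10]
  have hu1 : (X 1 1 - X 0 0) * (↑u⁻¹ : A) = 1 := by rw [← hu]; exact Units.mul_inv u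
  have hs1 : (1 - t) * (↑s⁻¹ : A) = 1 := by rw [← hs]; exact Units.mul_inv s
  -- `(1, z)` is an eigenvector of `X`
  have hquad : X 1 0 + X 1 1 * z = z * (X 0 0 + X 0 1 * z) := by
    have hbz : X 0 1 * z * ↑u⁻¹ = t := by
      rw [hzdef]
      linear_combination (↑s⁻¹ : A) * hte + (↑s⁻¹ : A) * hedef + t * hs1
    have hz : (X 1 1 - X 0 0) * z * (1 - t) = -(X 1 0) := by
      rw [hzdef]
      linear_combination (-(X 1 0)) * (↑s⁻¹ : A) * (1 - t) * hu1 + (-(X 1 0)) * hs1
    linear_combination hz - (z * (X 1 1 - X 0 0)) * hbz + z ^ 2 * X 0 1 * hu1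
  set w0 : A := Y 0 0 + Y 0 1 * z with hw0
  set w1 : A := Y 1 0 + Y 1 1 * z with hw1
  set P : Matrix (Fin 2) (Fin 2) A := !![1, w0; z, w1] with hP
  have hdet : IsUnit P.det := by
    apply isUnit_of_map_unit (IsLocalRing.residue A)
    simp [hP, Matrix.det_fin_two, hw0, hw1, b00, b10, hz0]
  obtain ⟨U, hU⟩ := (Matrix.isUnit_iff_isUnit_det P).mpr hdet
  let M' : MatRep A :=
    { toFun := fun σ => (↑U⁻¹ : Matrix (Fin 2) (Fin 2) A) * M σ * U
      map_one' := by rw [map_one, mul_one, Units.inv_mul]
      map_mul' := fun σ τ => by simp only [map_mul, mul_assoc, Units.mul_inv_cancel_left] }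
  have hint : ∀ σ, P * M' σ = M σ * P := fun σ => by
    rw [← hU]
    show (U : Matrix (Fin 2) (Fin 2) A) * ((↑U⁻¹ : Matrix (Fin 2) (Fin 2) A) * M σ * U) = _
    simp only [mul_assoc, Units.mul_inv_cancel_left]
  have hc' : MatCont M' := matCont_conj hc U⁻¹ (fun σ => by rw [inv_inv]; rfl)
  have hPres : (IsLocalRing.residue A).mapMatrix P = 1 := by
    ext i j
    fin_cases i <;> fin_cases j <;> simp [hP, hw0, hw1, b00, b10, hz0]
  have hred : Reduces N M' := by
    rw [Reduces.iff_residue]
    intro σ i j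
    have := congr_arg (IsLocalRing.residue A).mapMatrix (hint σ)
    rw [map_mul, map_mul, hPres, one_mul, mul_one] at this
    rw [← (Reduces.iff_residue N M).mp hM σ i j]
    exact congr_fun (congr_fun this i) j
  have hX := comb_intertwine N.cX P hint
  have hY := comb_intertwine N.cY P hint
  rw [← hXdef] at hX
  rw [← hYdef] at hY
  set X' := comb N.cX M'
  set Y' := comb N.cY M'
  have hd : IsUnit (w1 - z * w0) := by
    simpa [hP, Matrix.det_fin_two, mul_comm] using hdet
  have eX0 := congr_fun (congr_fun hX 0) 0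
  have eX1 := congr_fun (congr_fun hX 1) 0
  have eY0 := congr_fun (congr_fun hY 0) 0
  have eY1 := congr_fun (congr_fun hY 1) 0
  simp [hP, Matrix.mul_apply, Fin.sum_univ_two] at eX0 eX1 eY0 eY1
  have hX'10 : X' 1 0 = 0 := by
    refine (IsUnit.mul_right_eq_zero hd).mp ?_
    linear_combination eX1 - z * eX0 + hquad
  have hY'10 : Y' 1 0 = 1 := by
    refine sub_eq_zero.mp ((IsUnit.mul_right_eq_zero hd).mp ?_)
    linear_combination eY1 - z * eY0 - hw1 + z * hw0
  have hY'00 : Y' 0 0 = 0 := by
    linear_combination eY0 - w0 * hY'10 - hw0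
  refine ⟨M', hc', hred, ⟨hX'10, hY'00, hY'10⟩, ?_⟩
  obtain ⟨e⟩ := isEquiv_of_conj hc' hc P ⟨U, hU⟩ hint
  exact ⟨e.symm⟩

end FLTAgent.DefRing
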