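import Mathlib.RingTheory.MvPowerSeries.Equiv
import Mathlib.RingTheory.MvPowerSeries.Inverse
import Mathlib.RingTheory.AdicCompletion.Completeness
import Mathlib.RingTheory.AdicCompletion.Noetherian
import Mathlib.RingTheory.LocalRing.ResidueField.Basic
import Mathlib.RingTheory.Ideal.Quotient.Index

/-!
# Power series over a complete local ring

For `O⟦X_i : i ∈ σ⟧`: the powers of the maximal ideal (`mem_maximalIdeal_pow_iff`), completeness,
evaluation at nilpotent arguments (`evalNilp`) and extensionality of algebra homomorphisms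
(`algHom_ext_of_hausdorff`).  Used by the deformation ring and the patching arguments.
-/

set_option autoImplicit false

open IsLocalRing

noncomputable section

namespace FLTAgent.DefRing

variable {σ : Type} [Finite σ] {O : Type} [CommRing O]

/-- A series without terms of degree `< n` lies in the `n`th power of the ideal of the variables. -/
theorem mem_span_X_pow {n : ℕ} {p : MvPowerSeries σ O}
    (h : ∀ x : σ →₀ ℕ, Finsupp.degree x < n → MvPowerSeries.coeff x p = 0) :
    p ∈ (Ideal.span (Set.range (MvPowerSeries.X : σ → MvPowerSeries σ O))) ^ n := by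
  classical
  have ht : MvPowerSeries.truncTotal n p = 0 := by
    ext x
    rw [MvPolynomial.coeff_zero]
    by_cases hx : Finsupp.degree x < n
    · rw [MvPowerSeries.coeff_truncTotal _ hx, h x hx]
    · rw [MvPowerSeries.coeff_truncTotal_eq_zero _ (not_lt.mp hx)]
  let e := MvPowerSeries.toAdicCompletionAlgEquiv σ O
  have hker : e p ∈ (MvPolynomial.idealOfVars σ O ^ n) •
      (⊤ : Submodule (MvPolynomial σ O)
        (AdicCompletion (MvPolynomial.idealOfVars σ O) (MvPolynomial σ O))) := by
    rw [AdicCompletion.pow_smul_top_eq_ker_eval (MvPolynomial.idealOfVars_fg σ O),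
      LinearMap.mem_ker]
    show (MvPowerSeries.toAdicCompletion σ O p).val n = 0
    rw [MvPowerSeries.toAdicCompletion_apply_eq_mk_truncTotal, ht]
    simp
  have h2 : p ∈ (MvPolynomial.idealOfVars σ O ^ n) •
      (⊤ : Submodule (MvPolynomial σ O) (MvPowerSeries σ O)) := by
    have h3 := Submodule.mem_map_of_mem (f := e.symm.toLinearMap) hker
    rw [Submodule.map_smul'', Submodule.map_top,
      LinearMap.range_eq_top.mpr e.symm.surjective] at h3
    simpa using h3
  rw [Ideal.smul_top_eq_map, Submodule.restrictScalars_mem, Ideal.map_pow, Ideal.map_span,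
    ← Set.range_comp] at h2
  have hX : (algebraMap (MvPolynomial σ O) (MvPowerSeries σ O)) ∘ MvPolynomial.X =
      (MvPowerSeries.X : σ → MvPowerSeries σ O) := by
    funext i
    simp [MvPowerSeries.algebraMap_apply']
  rwa [hX] at h2

theorem sub_trunc_mem_span_X_pow (n : ℕ) (p : MvPowerSeries σ O) :
    p - ((MvPowerSeries.truncTotal n p : MvPolynomial σ O) : MvPowerSeries σ O) ∈
      (Ideal.span (Set.range (MvPowerSeries.X : σ → MvPowerSeries σ O))) ^ n := by
  refine mem_span_X_pow fun x hx => ?_
  rw [map_sub, MvPolynomial.coeff_coe, MvPowerSeries.coeff_truncTotal _ hx, sub_self]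

/-- Evaluation of power series at elements of an ideal with vanishing `n`-th power. -/
def evalNilp {A : Type} [CommRing A] [Algebra O A] (I : Ideal A) (n : ℕ) (hI : I ^ n = ⊥)
    (a : σ → A) (ha : ∀ i, a i ∈ I) : MvPowerSeries σ O →ₐ[O] A :=
  let q : MvPolynomial σ O ⧸ MvPolynomial.idealOfVars σ O ^ n →+* A :=
    Ideal.Quotient.lift _ (MvPolynomial.aeval a).toRingHom (fun x hx => by
      have hle : (MvPolynomial.idealOfVars σ O ^ n).map (MvPolynomial.aeval a).toRingHom ≤ ⊥ := by
        rw [← hI, Ideal.map_pow]
        refine Ideal.pow_right_mono ?_ n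
        rw [Ideal.map_span, Ideal.span_le]
        rintro _ ⟨_, ⟨i, rfl⟩, rfl⟩
        simpa using ha i
      exact (Submodule.mem_bot A).mp (hle (Ideal.mem_map_of_mem _ hx)))
  { toRingHom := q.comp (MvPowerSeries.truncTotalAlgHom σ O n).toRingHom
    commutes' := fun r => by
      have h : algebraMap O (MvPowerSeries σ O) r =
          algebraMap (MvPolynomial σ O) (MvPowerSeries σ O) (MvPolynomial.C r) := by
        simp [MvPowerSeries.algebraMap_apply', MvPowerSeries.algebraMap_apply,
          MvPolynomial.coe_C]
      show q (MvPowerSeries.truncTotalAlgHom σ O n (algebraMap O (MvPowerSeries σ O) r)) = _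
      rw [h, AlgHom.commutes, Ideal.Quotient.algebraMap_eq]
      show MvPolynomial.aeval a (MvPolynomial.C r) = _
      simp }

theorem evalNilp_X {A : Type} [CommRing A] [Algebra O A] (I : Ideal A) (n : ℕ) (hI : I ^ n = ⊥)
    (a : σ → A) (ha : ∀ i, a i ∈ I) (i : σ) :
    evalNilp (O := O) I n hI a ha (MvPowerSeries.X i) = a i := by
  have h : (MvPowerSeries.X i : MvPowerSeries σ O) =
      algebraMap (MvPolynomial σ O) (MvPowerSeries σ O) (MvPolynomial.X i) := by
    simp [MvPowerSeries.algebraMap_apply']
  rw [h]
  unfold evalNilp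
  simp only [AlgHom.coe_mk, RingHom.coe_comp, Function.comp_apply, AlgHom.toRingHom_eq_coe,
    RingHom.coe_coe, AlgHom.commutes, Ideal.Quotient.algebraMap_eq, Ideal.Quotient.lift_mk]
  simp

variable [IsLocalRing O]

omit [Finite σ] in
/-- A series is in the maximal ideal iff its constant term is. -/
theorem mem_maximalIdeal_iff_constantCoeff (p : MvPowerSeries σ O) :
    p ∈ maximalIdeal (MvPowerSeries σ O) ↔
      MvPowerSeries.constantCoeff p ∈ maximalIdeal O := by
  simp only [mem_maximalIdeal, mem_nonunits_iff, MvPowerSeries.isUnit_iff_constantCoeff]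

omit [Finite σ] in
/-- The variables lie in the maximal ideal. -/
theorem X_mem_maximalIdeal (i : σ) :
    (MvPowerSeries.X i : MvPowerSeries σ O) ∈ maximalIdeal (MvPowerSeries σ O) := by
  rw [mem_maximalIdeal_iff_constantCoeff, MvPowerSeries.constantCoeff_X]
  exact zero_mem _

omit [Finite σ] in
theorem span_X_le_maximalIdeal :
    Ideal.span (Set.range (MvPowerSeries.X : σ → MvPowerSeries σ O)) ≤
      maximalIdeal (MvPowerSeries σ O) :=
  Ideal.span_le.mpr (by rintro _ ⟨i, rfl⟩; exact X_mem_maximalIdeal i)

instance isLocalHom_algebraMap_mvPowerSeries :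
    IsLocalHom (algebraMap O (MvPowerSeries σ O)) :=
  ⟨fun r hr => by
    have := MvPowerSeries.isUnit_constantCoeff _ hr
    simpa [MvPowerSeries.algebraMap_apply] using this⟩

omit [Finite σ] in
theorem residue_algebraMap_surjective_mvPowerSeries :
    Function.Surjective
      (IsLocalRing.residue (MvPowerSeries σ O) ∘ algebraMap O (MvPowerSeries σ O)) := by
  intro y
  obtain ⟨p, rfl⟩ := IsLocalRing.residue_surjective y
  refine ⟨MvPowerSeries.constantCoeff p, ?_⟩
  show IsLocalRing.residue _ _ = _
  rw [← sub_eq_zero, ← map_sub, IsLocalRing.residue_eq_zero_iff,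
    mem_maximalIdeal_iff_constantCoeff]
  simp [MvPowerSeries.algebraMap_apply]

/-- Coefficient description of the powers of the maximal ideal. -/
theorem mem_maximalIdeal_pow_iff (N : ℕ) (p : MvPowerSeries σ O) :
    p ∈ maximalIdeal (MvPowerSeries σ O) ^ N ↔
      ∀ x : σ →₀ ℕ, MvPowerSeries.coeff x p ∈ maximalIdeal O ^ (N - Finsupp.degree x) := by
  classical
  refine ⟨?_, fun h => ?_⟩
  · induction N generalizing p with
    | zero => intro _ x; simp
    | succ N ih =>
      intro hp x
      rw [pow_succ] at hp
      revert x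
      refine Submodule.mul_induction_on
        (C := fun p => ∀ x : σ →₀ ℕ,
          MvPowerSeries.coeff x p ∈ maximalIdeal O ^ (N + 1 - Finsupp.degree x)) hp ?_ ?_
      · intro f hf g hg x
        rw [MvPowerSeries.coeff_mul]
        refine Ideal.sum_mem _ fun uv huv => ?_
        rw [Finset.HasAntidiagonal.mem_antidiagonal] at huv
        have hd : Finsupp.degree uv.1 + Finsupp.degree uv.2 = Finsupp.degree x := by
          rw [← map_add, huv]
        have hg' : MvPowerSeries.coeff uv.2 g ∈ maximalIdeal O ^ (1 - Finsupp.degree uv.2) := by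
          by_cases h2 : uv.2 = 0
          · rw [h2, map_zero, Nat.sub_zero, pow_one, MvPowerSeries.coeff_zero_eq_constantCoeff]
            exact (mem_maximalIdeal_iff_constantCoeff g).mp hg
          · have : 1 - Finsupp.degree uv.2 = 0 := by
              have : Finsupp.degree uv.2 ≠ 0 := by
                rwa [Ne, Finsupp.degree_eq_zero_iff]
              omega
            simp [this]
        have := Ideal.mul_mem_mul (ih f hf uv.1) hg'
        rw [← pow_add] at this
        exact Ideal.pow_le_pow_right (by omega) this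
      · intro f g hf hg x
        rw [map_add]; exact add_mem (hf x) (hg x)
  · have h1 := Ideal.pow_right_mono span_X_le_maximalIdeal N (sub_trunc_mem_span_X_pow N p)
    have h2 : ((MvPowerSeries.truncTotal N p : MvPolynomial σ O) : MvPowerSeries σ O) ∈
        maximalIdeal (MvPowerSeries σ O) ^ N := by
      rw [(MvPowerSeries.truncTotal N p).as_sum, ← MvPolynomial.coeToMvPowerSeries.ringHom_apply,
        map_sum]
      refine Ideal.sum_mem _ fun x _ => ?_
      by_cases hx : Finsupp.degree x < N
      · rw [MvPowerSeries.coeff_truncTotal _ hx, ← mul_one (MvPowerSeries.coeff x p),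
          ← smul_eq_mul, ← MvPolynomial.smul_monomial, MvPolynomial.smul_eq_C_mul, map_mul]
        have hC : MvPolynomial.coeToMvPowerSeries.ringHom
            (MvPolynomial.C (MvPowerSeries.coeff x p) : MvPolynomial σ O) ∈
              maximalIdeal (MvPowerSeries σ O) ^ (N - Finsupp.degree x) := by
          have hm : (maximalIdeal O).map (algebraMap O (MvPowerSeries σ O)) ≤
              maximalIdeal (MvPowerSeries σ O) := by
            refine Ideal.map_le_iff_le_comap.mpr fun r hr => ?_
            rw [Ideal.mem_comap]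
            exact map_nonunit _ r hr
          have := (Ideal.map_pow _ _ _).le.trans (Ideal.pow_right_mono hm (N - Finsupp.degree x))
            (Ideal.mem_map_of_mem (algebraMap O (MvPowerSeries σ O)) (h x))
          simpa [MvPowerSeries.algebraMap_apply, MvPolynomial.coe_C] using this
        have hM : MvPolynomial.coeToMvPowerSeries.ringHom
            (MvPolynomial.monomial x (1 : O)) ∈
              maximalIdeal (MvPowerSeries σ O) ^ (Finsupp.degree x) := by
          have hv : (MvPolynomial.idealOfVars σ O).map MvPolynomial.coeToMvPowerSeries.ringHom ≤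
              maximalIdeal (MvPowerSeries σ O) := by
            rw [Ideal.map_span, Ideal.span_le]
            rintro _ ⟨_, ⟨i, rfl⟩, rfl⟩
            simpa using X_mem_maximalIdeal i
          exact (Ideal.map_pow _ _ _).le.trans (Ideal.pow_right_mono hv _)
            (Ideal.mem_map_of_mem _
              ((MvPolynomial.monomial_mem_pow_idealOfVars_iff _ x one_ne_zero).mpr le_rfl))
        have := Ideal.mul_mem_mul hC hM
        rw [← pow_add, show N - Finsupp.degree x + Finsupp.degree x = N by omega] at this
        exact this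
      · rw [MvPowerSeries.coeff_truncTotal_eq_zero _ (not_lt.mp hx)]
        simp
    have := add_mem h1 h2
    rwa [sub_add_cancel] at this

instance isPrecomplete_mvPowerSeries [IsPrecomplete (maximalIdeal O) O] :
    IsPrecomplete (maximalIdeal (MvPowerSeries σ O)) (MvPowerSeries σ O) := by
  refine ⟨fun f hf => ?_⟩
  have hf' : ∀ {m n : ℕ}, m ≤ n → f m - f n ∈ maximalIdeal (MvPowerSeries σ O) ^ m := by
    intro m n h
    have := hf h
    rwa [SModEq.sub_mem, smul_eq_mul, Ideal.mul_top] at this
  have hex : ∀ x : σ →₀ ℕ, ∃ L : O, ∀ n : ℕ,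
      MvPowerSeries.coeff x (f (n + Finsupp.degree x)) - L ∈ maximalIdeal O ^ n := by
    intro x
    obtain ⟨L, hL⟩ := IsPrecomplete.prec (I := maximalIdeal O) (M := O) inferInstance
      (f := fun n => MvPowerSeries.coeff x (f (n + Finsupp.degree x))) (fun {m n} h => by
        rw [SModEq.sub_mem, smul_eq_mul, Ideal.mul_top, ← map_sub]
        have := (mem_maximalIdeal_pow_iff _ _).mp
          (hf' (Nat.add_le_add_right h (Finsupp.degree x))) x
        simpa using this)
    refine ⟨L, fun n => ?_⟩
    have := hL n
    rwa [SModEq.sub_mem, smul_eq_mul, Ideal.mul_top] at this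
  choose L hL using hex
  let q : MvPowerSeries σ O := fun x => L x
  have hq : ∀ x, MvPowerSeries.coeff x q = L x := fun x => rfl
  clear_value q
  refine ⟨q, fun n => ?_⟩
  rw [SModEq.sub_mem, smul_eq_mul, Ideal.mul_top, mem_maximalIdeal_pow_iff]
  intro x
  by_cases hx : Finsupp.degree x < n
  · have := hL x (n - Finsupp.degree x)
    rw [show n - Finsupp.degree x + Finsupp.degree x = n by omega] at this
    rw [map_sub, hq]
    exact this
  · simp [show n - Finsupp.degree x = 0 by omega]

/-- `O⟦X⟧` is complete for its maximal ideal. -/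
instance isAdicComplete_mvPowerSeries [IsNoetherianRing O] [IsPrecomplete (maximalIdeal O) O] :
    IsAdicComplete (maximalIdeal (MvPowerSeries σ O)) (MvPowerSeries σ O) :=
  ⟨⟩

omit [Finite σ] [IsLocalRing O] in
/-- A homomorphism sending the variables into `J` sends the `n`th power of their
ideal into `J ^ n`. -/
theorem mem_pow_of_algHom {A : Type} [CommRing A] [Algebra O A] (J : Ideal A)
    (φ : MvPowerSeries σ O →ₐ[O] A) (hφ : ∀ i, φ (MvPowerSeries.X i) ∈ J)
    (n : ℕ) (p : MvPowerSeries σ O)
    (hp : p ∈ Ideal.span (Set.range (MvPowerSeries.X : σ → MvPowerSeries σ O)) ^ n) :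
    φ p ∈ J ^ n := by
  have hle : (Ideal.span (Set.range (MvPowerSeries.X : σ → MvPowerSeries σ O))).map φ ≤ J := by
    rw [Ideal.map_span, Ideal.span_le]
    rintro _ ⟨_, ⟨i, rfl⟩, rfl⟩
    exact hφ i
  exact Ideal.pow_right_mono hle n (Ideal.map_pow φ _ n ▸ Ideal.mem_map_of_mem φ hp)

omit [IsLocalRing O] in
/-- Algebra homomorphisms from `O⟦X⟧` to a Hausdorff ring are determined by the images of the
variables, provided these are topologically nilpotent. -/
theorem algHom_ext_of_hausdorff {A : Type} [CommRing A] [Algebra O A] (J : Ideal A)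
    [IsHausdorff J A] (φ ψ : MvPowerSeries σ O →ₐ[O] A)
    (hφ : ∀ i, φ (MvPowerSeries.X i) ∈ J)
    (h : ∀ i, φ (MvPowerSeries.X i) = ψ (MvPowerSeries.X i)) : φ = ψ := by
  have hψ : ∀ i, ψ (MvPowerSeries.X i) ∈ J := fun i => h i ▸ hφ i
  have hpoly : φ.comp (MvPolynomial.coeToMvPowerSeries.algHom O) =
      ψ.comp (MvPolynomial.coeToMvPowerSeries.algHom O) :=
    MvPolynomial.algHom_ext fun i => by
      simpa [MvPolynomial.coeToMvPowerSeries.algHom_apply] using h i
  refine AlgHom.ext fun p => ?_
  rw [← sub_eq_zero]
  refine IsHausdorff.haus (I := J) inferInstance _ fun n => ?_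
  rw [SModEq.zero, smul_eq_mul, Ideal.mul_top]
  have hsub := sub_trunc_mem_span_X_pow (O := O) n p
  have h1 := mem_pow_of_algHom J φ hφ n _ hsub
  have h2 := mem_pow_of_algHom J ψ hψ n _ hsub
  have h3 : φ ((MvPowerSeries.truncTotal n p : MvPolynomial σ O) : MvPowerSeries σ O) =
      ψ ((MvPowerSeries.truncTotal n p : MvPolynomial σ O) : MvPowerSeries σ O) := by
    have := AlgHom.congr_fun hpoly (MvPowerSeries.truncTotal n p)
    simpa [MvPolynomial.coeToMvPowerSeries.algHom_apply] using this
  have := sub_mem h1 h2
  rw [map_sub, map_sub, h3, sub_sub_sub_cancel_right] at this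
  exact this

end FLTAgent.DefRing
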