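import Mathlib.RingTheory.AdicCompletion.Noetherian
import Mathlib.RingTheory.Ideal.Quotient.Index
import Mathlib.RingTheory.LocalRing.ResidueField.Basic
import Mathlib.Data.Fintype.Order

/-!
# Compactness in complete Noetherian local rings with finite residue field

A decreasing sequence of cosets of ideals, each containing a power of the maximal ideal, has a
common point (`exists_forall_sub_mem`), and Chevalley's lemma `exists_le_sup_maximalIdeal_pow`
holds.  These give the limit arguments of the universal deformation ring and of patching.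
-/

set_option autoImplicit false

open IsLocalRing

namespace FLTAgent.DefRing

variable {Λ : Type} [CommRing Λ] [IsLocalRing Λ] [IsNoetherianRing Λ]

/-- The quotient by a power of the maximal ideal is finite when the residue field is. -/
theorem finite_quotient_maximalIdeal_pow [Finite (ResidueField Λ)] (n : ℕ) :
    Finite (Λ ⧸ maximalIdeal Λ ^ n) :=
  haveI : Finite (Λ ⧸ maximalIdeal Λ) := inferInstanceAs (Finite (ResidueField Λ))
  Ideal.finite_quotient_pow (maximalIdeal Λ).fg_of_isNoetherianRing n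

theorem exists_forall_sub_mem [IsPrecomplete (maximalIdeal Λ) Λ] [Finite (ResidueField Λ)]
    (J : ℕ → Ideal Λ) (hanti : ∀ N, J (N + 1) ≤ J N)
    (hopen : ∀ N, ∃ g, maximalIdeal Λ ^ g ≤ J N)
    (r : ℕ → Λ) (hr : ∀ N, r (N + 1) - r N ∈ J N) :
    ∃ x : Λ, ∀ N, x - r N ∈ J N := by
  classical
  have hantitone : Antitone J := antitone_nat_of_succ_le hanti
  have hcomp : ∀ N M, N ≤ M → r M - r N ∈ J N := by
    intro N M h
    induction M, h using Nat.le_induction with
    | base => simp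
    | succ M hNM ih =>
      have := add_mem (hantitone hNM (hr M)) ih
      simpa using this
  -- `S N g y`: the class `y` modulo `m^g` meets the coset number `N`
  let S : ℕ → (g : ℕ) → Λ ⧸ maximalIdeal Λ ^ g → Prop := fun N g y =>
    ∃ x, x - r N ∈ J N ∧ Ideal.Quotient.mk _ x = y
  have hS : ∀ {N M g y}, N ≤ M → S M g y → S N g y := by
    rintro N M g y hNM ⟨x, hx, rfl⟩
    refine ⟨x, ?_, rfl⟩
    have := add_mem (hantitone hNM hx) (hcomp N M hNM)
    simpa using this
  have hbase : ∃ y : Λ ⧸ maximalIdeal Λ ^ 0, ∀ N, S N 0 y := by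
    refine ⟨0, fun N => ⟨r N, by simp, ?_⟩⟩
    rw [Ideal.Quotient.eq_zero_iff_mem]
    simp
  have hstep : ∀ g (y : Λ ⧸ maximalIdeal Λ ^ g), (∀ N, S N g y) →
      ∃ y' : Λ ⧸ maximalIdeal Λ ^ (g + 1),
        (∀ N, S N (g + 1) y') ∧ Ideal.Quotient.factorPow (maximalIdeal Λ) g.le_succ y' = y := by
    intro g y hy
    have := finite_quotient_maximalIdeal_pow (Λ := Λ) (g + 1)
    by_contra hcon
    push Not at hcon
    have hbad : ∀ y' : Λ ⧸ maximalIdeal Λ ^ (g + 1), ∃ N,
        Ideal.Quotient.factorPow (maximalIdeal Λ) g.le_succ y' = y → ¬ S N (g + 1) y' := by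
      intro y'
      by_contra h
      push Not at h
      exact hcon y' (fun N => (h N).2) (h 0).1
    choose F hF using hbad
    obtain ⟨M, hM⟩ := Finite.exists_le F
    obtain ⟨x, hx, hxy⟩ := hy M
    refine hF (Ideal.Quotient.mk _ x) ?_ (hS (hM _) ⟨x, hx, rfl⟩)
    rw [← hxy]; rfl
  let C := fun g => {y : Λ ⧸ maximalIdeal Λ ^ g // ∀ N, S N g y}
  let c : ∀ g, C g := fun g => Nat.rec (motive := C) ⟨_, hbase.choose_spec⟩
    (fun g y => ⟨(hstep g y.1 y.2).choose, (hstep g y.1 y.2).choose_spec.1⟩) g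
  have hc : ∀ g, Ideal.Quotient.factorPow (maximalIdeal Λ) g.le_succ (c (g + 1)).1 = (c g).1 :=
    fun g => (hstep g (c g).1 (c g).2).choose_spec.2
  choose f hf using fun g => Ideal.Quotient.mk_surjective (c g).1
  have hff : ∀ {m n}, m ≤ n → f n - f m ∈ maximalIdeal Λ ^ m := by
    intro m n h
    induction n, h using Nat.le_induction with
    | base => simp
    | succ n hmn ih =>
      have h1 : f (n + 1) - f n ∈ maximalIdeal Λ ^ n := by
        rw [← Ideal.Quotient.eq, hf n, ← hc n, ← hf (n + 1)]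
        rfl
      have := add_mem (Ideal.pow_le_pow_right hmn h1) ih
      simpa using this
  obtain ⟨x, hx⟩ := IsPrecomplete.prec (I := maximalIdeal Λ) (M := Λ) inferInstance (f := f)
    (fun {m n} h => by
      rw [SModEq.sub_mem, smul_eq_mul, Ideal.mul_top]
      simpa using neg_mem (hff h))
  refine ⟨x, fun N => ?_⟩
  obtain ⟨g, hg⟩ := hopen N
  obtain ⟨z, hz, hzy⟩ := (c g).2 N
  have h1 : f g - z ∈ maximalIdeal Λ ^ g := by rw [← Ideal.Quotient.eq, hf, hzy]
  have h2 := hx g
  rw [SModEq.sub_mem, smul_eq_mul, Ideal.mul_top] at h2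
  have := add_mem (hg (sub_mem h1 h2)) hz
  have e : x - r N = f g - z - (f g - x) + (z - r N) := by ring
  rw [e]; exact this

/-- Chevalley's lemma. -/
theorem exists_le_sup_maximalIdeal_pow [IsPrecomplete (maximalIdeal Λ) Λ]
    [Finite (ResidueField Λ)] (J : ℕ → Ideal Λ) (hanti : ∀ N, J (N + 1) ≤ J N)
    (hopen : ∀ N, ∃ g, maximalIdeal Λ ^ g ≤ J N) (n : ℕ) :
    ∃ N, J N ≤ (⨅ M, J M) ⊔ maximalIdeal Λ ^ n := by
  classical
  have hantitone : Antitone J := antitone_nat_of_succ_le hanti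
  have := finite_quotient_maximalIdeal_pow (Λ := Λ) n
  have key : ∀ y : Λ ⧸ maximalIdeal Λ ^ n, (∀ N, ∃ x ∈ J N, Ideal.Quotient.mk _ x = y) →
      ∃ x ∈ ⨅ M, J M, Ideal.Quotient.mk _ x = y := by
    intro y hy
    choose x hxJ hxy using hy
    obtain ⟨z, hz⟩ := exists_forall_sub_mem (fun N => J N ⊓ maximalIdeal Λ ^ n)
      (fun N => inf_le_inf_right _ (hanti N))
      (fun N => by
        obtain ⟨g, hg⟩ := hopen N
        exact ⟨max g n, le_inf ((Ideal.pow_le_pow_right (le_max_left _ _)).trans hg)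
          (Ideal.pow_le_pow_right (le_max_right _ _))⟩)
      x (fun N => ⟨sub_mem (hanti N (hxJ (N + 1))) (hxJ N),
        Ideal.Quotient.eq.mp ((hxy (N + 1)).trans (hxy N).symm)⟩)
    refine ⟨z, ?_, ?_⟩
    · rw [Submodule.mem_iInf]
      intro M
      simpa using add_mem (hz M).1 (hxJ M)
    · rw [← hxy 0, Ideal.Quotient.eq]
      exact (hz 0).2
  have : ∀ y : Λ ⧸ maximalIdeal Λ ^ n, ∃ N, (∃ x ∈ ⨅ M, J M, Ideal.Quotient.mk _ x = y) ∨
      ¬ ∃ x ∈ J N, Ideal.Quotient.mk _ x = y := by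
    intro y
    by_contra h
    push Not at h
    obtain ⟨x, hx, hxy⟩ := key y (fun N => (h N).2)
    exact (h 0).1 x hx hxy
  choose F hF using this
  obtain ⟨N, hN⟩ := Finite.exists_le F
  refine ⟨N, fun x hx => ?_⟩
  rcases hF (Ideal.Quotient.mk _ x) with ⟨z, hz, hzx⟩ | hno
  · rw [Submodule.mem_sup]
    exact ⟨z, hz, x - z, Ideal.Quotient.eq.mp hzx.symm, by abel⟩
  · exact absurd ⟨x, hantitone (hN _) hx, rfl⟩ hno

end FLTAgent.DefRing
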