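import Mathlib.RingTheory.Artinian.Module
import Mathlib.RingTheory.HopkinsLevitzki
import Mathlib.RingTheory.TensorProduct.Free
import Fermat.Agent.DefRing.Compactness
import Fermat.Prelude.Def_GaloisRep_DeformationCondition

/-!
# Artinian test algebras over a complete local ring with finite residue field

The residual point `resPt` of a test algebra and closure properties: subalgebras, the residue
field and the quotients by powers of the maximal ideal of a complete local algebra
(`isTestAlgebra_quotient_pow`).  Used throughout `DefRing.Generation` and `DefRing.Universal`.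
-/

set_option autoImplicit false

open IsLocalRing GaloisRep

noncomputable section

namespace FLTAgent.DefRing

variable {O : Type} [CommRing O] [IsLocalRing O]
variable {A : Type} [CommRing A] [IsLocalRing A] [Algebra O A]

theorem residueMap_surjective [IsLocalHom (algebraMap O A)]
    (hs : Function.Surjective (IsLocalRing.residue A ∘ algebraMap O A)) :
    Function.Surjective (ResidueField.map (algebraMap O A)) := by
  intro y
  obtain ⟨c, rfl⟩ := hs y
  exact ⟨IsLocalRing.residue O c, ResidueField.map_residue _ _⟩

/-- The residue map of a test algebra, with values in the residue field of the base. -/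
def resPt (hA : IsArtinianTestAlgebra O A) : A →ₐ[O] ResidueField O :=
  haveI := hA.isLocalHom
  { toRingHom := ((RingEquiv.ofBijective (ResidueField.map (algebraMap O A))
      ⟨RingHom.injective _, residueMap_surjective hA.residue_surjective⟩).symm.toRingHom).comp
        (IsLocalRing.residue A)
    commutes' := fun c => by
      show (RingEquiv.ofBijective (ResidueField.map (algebraMap O A)) _).symm
        (IsLocalRing.residue A (algebraMap O A c)) = IsLocalRing.residue O c
      rw [RingEquiv.symm_apply_eq]
      exact (ResidueField.map_residue _ _).symm }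

theorem resPt_eq_zero_iff (hA : IsArtinianTestAlgebra O A) (x : A) :
    resPt hA x = 0 ↔ x ∈ maximalIdeal A := by
  unfold resPt
  simp [residue_eq_zero_iff]

theorem isUnit_of_resPt_ne_zero (hA : IsArtinianTestAlgebra O A) {x : A} (h : resPt hA x ≠ 0) :
    IsUnit x := by
  rw [Ne, resPt_eq_zero_iff] at h
  simpa using h

omit [IsLocalRing O] in
theorem exists_pow_maximalIdeal_eq_bot (hA : IsArtinianTestAlgebra O A) :
    ∃ n, maximalIdeal A ^ n = ⊥ := by
  have := hA.isArtinian
  obtain ⟨n, hn⟩ := (isArtinianRing_iff_isNilpotent_maximalIdeal A).mp hA.isArtinian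
  exact ⟨n, hn⟩

theorem finite_residueField_of_surjective [Finite (ResidueField O)] [IsLocalHom (algebraMap O A)]
    (hs : Function.Surjective (IsLocalRing.residue A ∘ algebraMap O A)) :
    Finite (ResidueField A) :=
  Finite.of_surjective _ (residueMap_surjective hs)

theorem finite_of_isTestAlgebra [Finite (ResidueField O)] (hA : IsArtinianTestAlgebra O A) :
    Finite A := by
  have := hA.isLocalHom
  have := hA.isArtinian
  have := finite_residueField_of_surjective (O := O) hA.residue_surjective
  obtain ⟨n, hn⟩ := exists_pow_maximalIdeal_eq_bot hA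
  have := finite_quotient_maximalIdeal_pow (Λ := A) n
  exact Finite.of_injective (Ideal.Quotient.mk (maximalIdeal A ^ n))
    ((RingHom.injective_iff_ker_eq_bot _).mpr (by rw [Ideal.mk_ker, hn]))

omit [IsLocalRing O] in
/-- An algebra homomorphism out of a test algebra into a local ring is local. -/
theorem isLocalHom_of_isTestAlgebra (hA : IsArtinianTestAlgebra O A) {B : Type} [CommRing B]
    [Algebra O B] [Nontrivial B] (φ : A →ₐ[O] B) : IsLocalHom (φ : A →+* B) := by
  refine ⟨fun x hx => ?_⟩
  by_contra hu
  obtain ⟨n, hn⟩ := exists_pow_maximalIdeal_eq_bot hA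
  have hm : x ^ n = 0 := by
    rw [← Submodule.mem_bot A, ← hn]
    exact Ideal.pow_mem_pow ((mem_maximalIdeal _).mpr hu) n
  have : IsUnit ((φ : A →+* B) (x ^ n)) := by rw [map_pow]; exact hx.pow n
  rw [hm, map_zero] at this
  exact not_isUnit_zero this

omit [IsLocalRing O] [IsLocalRing A] in
/-- In a finite subalgebra, an element which is a unit in the ambient ring is a unit. -/
theorem isUnit_of_coe_isUnit (S : Subalgebra O A) [Finite S] {x : S} (h : IsUnit (x : A)) :
    IsUnit x := by
  have hinj : Function.Injective fun y : S => x * y := fun y z hyz =>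
    Subtype.ext (h.mul_left_cancel (by simpa using congr_arg Subtype.val hyz))
  obtain ⟨y, hy⟩ := (Finite.injective_iff_surjective.mp hinj) 1
  exact IsUnit.of_mul_eq_one y hy

omit [IsLocalRing A] in
/-- A finite algebra with a unique point with values in the residue field is a test algebra. -/
theorem isTestAlgebra_of_point [Finite A] (π : A →ₐ[O] ResidueField O)
    (h : ∀ x, π x ≠ 0 → IsUnit x) :
    ∃ _ : IsLocalRing A, IsArtinianTestAlgebra O A := by
  have : Nontrivial A := π.toRingHom.domain_nontrivial
  have hne : ∀ x, IsUnit x → π x ≠ 0 := fun x hx => (hx.map π).ne_zero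
  have hloc : IsLocalRing A := IsLocalRing.of_nonunits_add fun a b ha hb => by
    rw [mem_nonunits_iff] at *
    intro hab
    refine hne _ hab ?_
    rw [map_add, of_not_not (fun h' => ha (h _ h')), of_not_not (fun h' => hb (h _ h')), add_zero]
  refine ⟨hloc, ⟨⟨fun c hc => ?_⟩, fun y => ?_, inferInstance⟩⟩
  · have := hne _ hc
    rw [AlgHom.commutes] at this
    exact residue_ne_zero_iff_isUnit _ |>.mp this
  · obtain ⟨x, rfl⟩ := IsLocalRing.residue_surjective y
    obtain ⟨c, hc⟩ := IsLocalRing.residue_surjective (π x)
    refine ⟨c, ?_⟩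
    rw [Function.comp_apply, ← sub_eq_zero, ← map_sub, residue_eq_zero_iff, mem_maximalIdeal,
      mem_nonunits_iff]
    intro hu
    refine hne _ hu ?_
    rw [map_sub, AlgHom.commutes, ← hc, sub_eq_zero]
    rfl

/-- A subalgebra of a test algebra is a test algebra. -/
theorem isTestAlgebra_subalgebra [Finite (ResidueField O)] (hA : IsArtinianTestAlgebra O A)
    (S : Subalgebra O A) : ∃ _ : IsLocalRing S, IsArtinianTestAlgebra O S := by
  have := finite_of_isTestAlgebra hA
  exact isTestAlgebra_of_point ((resPt hA).comp S.val) fun x hx =>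
    isUnit_of_coe_isUnit S (isUnit_of_resPt_ne_zero hA hx)

theorem isTestAlgebra_residueField [Finite (ResidueField O)] :
    IsArtinianTestAlgebra O (ResidueField O) :=
  (isTestAlgebra_of_point (AlgHom.id O (ResidueField O)) fun _ hx => isUnit_iff_ne_zero.mpr hx).elim
    fun _ h => h

omit [IsLocalRing A] in
theorem isHausdorff_of_pow_eq_bot (I : Ideal A) (n : ℕ) (h : I ^ n = ⊥) : IsHausdorff I A :=
  ⟨fun x hx => by
    have := hx n
    rwa [SModEq.zero, smul_eq_mul, Ideal.mul_top, h, Submodule.mem_bot] at this⟩

omit [IsLocalRing A] in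
theorem map_mk_pow_eq_bot (I : Ideal A) (n : ℕ) :
    (I.map (Ideal.Quotient.mk (I ^ n))) ^ n = ⊥ := by
  rw [← Ideal.map_pow, Ideal.map_quotient_self]

/-- Quotients by powers of the maximal ideal are test algebras. -/
theorem isTestAlgebra_quotient_pow [Finite (ResidueField O)] [IsNoetherianRing A]
    (hl : IsLocalHom (algebraMap O A))
    (hs : Function.Surjective (IsLocalRing.residue A ∘ algebraMap O A)) (n : ℕ) :
    ∃ _ : IsLocalRing (A ⧸ maximalIdeal A ^ (n + 1)),
      IsArtinianTestAlgebra O (A ⧸ maximalIdeal A ^ (n + 1)) := by
  have := hl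
  have := finite_residueField_of_surjective (O := O) hs
  have := finite_quotient_maximalIdeal_pow (Λ := A) (n + 1)
  let e := RingEquiv.ofBijective (ResidueField.map (algebraMap O A))
      ⟨RingHom.injective _, residueMap_surjective hs⟩
  let π : A →ₐ[O] ResidueField O :=
    { toRingHom := e.symm.toRingHom.comp (IsLocalRing.residue A)
      commutes' := fun c => by
        show e.symm (IsLocalRing.residue A (algebraMap O A c)) = IsLocalRing.residue O c
        rw [RingEquiv.symm_apply_eq]
        exact (ResidueField.map_residue _ _).symm }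
  have hπ : ∀ a, π a = 0 ↔ a ∈ maximalIdeal A := fun a => by simp [π, residue_eq_zero_iff]
  refine isTestAlgebra_of_point (Ideal.Quotient.liftₐ _ π
    fun a ha => (hπ a).mpr (Ideal.pow_le_self n.succ_ne_zero ha)) fun x hx => ?_
  obtain ⟨a, rfl⟩ := Ideal.Quotient.mk_surjective x
  have : π a ≠ 0 := hx
  rw [Ne, hπ] at this
  exact (show IsUnit a by simpa using this).map _

end FLTAgent.DefRing
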