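import Mathlib.Algebra.DualNumber
import Mathlib.LinearAlgebra.Dual.Lemmas
import Fermat.Agent.DefRing.PowerSeries
import Fermat.Agent.DefRing.NormalForm
import Fermat.Agent.DefRing.TestAlgebra

/-!
# Artinian points of the deformation problem are generated by finitely many entries

`DLift` is a normalised deformation to a test algebra and `psi` its classifying map out of a power
series ring.  When a finite set `S` of entries separates tangent vectors, every lift factors
through one generated by `S` (`exists_gen`), and two lifts are dominated by a third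
(`exists_dominating`).  This is used to build the universal ring in `DefRing.Universal`.
-/

set_option autoImplicit false

open IsLocalRing GaloisRep

noncomputable section

namespace FLTAgent.DefRing

variable {O : Type} [CommRing O] [IsLocalRing O] (N : NormData O)
  (𝒟 : ∀ ⦃A : Type⦄ [CommRing A] [IsLocalRing A] [Algebra O A], GaloisRepAdic A → Prop)

theorem isEquiv_trans {A : Type} [CommRing A] [IsLocalRing A] {a b c : GaloisRepAdic A}
    (h : a.IsEquiv b) (h' : b.IsEquiv c) : a.IsEquiv c := by
  obtain ⟨e⟩ := h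
  obtain ⟨e'⟩ := h'
  exact ⟨e.trans e'⟩

theorem isEquiv_symm {A : Type} [CommRing A] [IsLocalRing A] {a b : GaloisRepAdic A}
    (h : a.IsEquiv b) : b.IsEquiv a := by
  obtain ⟨e⟩ := h
  exact ⟨e.symm⟩

/-- A representation is trivial on some finite level. -/
def FinLevel {A : Type} [CommRing A] (M : MatRep A) : Prop :=
  ∃ L : IntermediateField ℚ (AlgebraicClosure ℚ), FiniteDimensional ℚ L ∧
    ∀ σ : AbsGal, (∀ x ∈ L, σ x = x) → M σ = 1

theorem FinLevel.matCont {A : Type} [CommRing A] [IsLocalRing A] {M : MatRep A} (h : FinLevel M) :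
    MatCont M := by
  obtain ⟨L, hL, h1⟩ := h
  exact fun n => ⟨L, hL, fun σ hσ i j => by simp [h1 σ hσ]⟩

omit [IsLocalRing O] in
theorem MatCont.finLevel {A : Type} [CommRing A] [IsLocalRing A] [Algebra O A]
    (hA : IsArtinianTestAlgebra O A) {M : MatRep A} (h : MatCont M) : FinLevel M := by
  obtain ⟨n, hn⟩ := exists_pow_maximalIdeal_eq_bot hA
  obtain ⟨L, hL, h1⟩ := h n
  refine ⟨L, hL, fun σ hσ => Matrix.ext fun i j => ?_⟩
  have := h1 σ hσ i j
  rw [hn, Submodule.mem_bot, Matrix.sub_apply, sub_eq_zero] at this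
  exact this

theorem FinLevel.of_map {A B : Type} [CommRing A] [CommRing B] {φ : A →+* B}
    (hφ : Function.Injective φ) {M : MatRep A} (h : FinLevel (mapRep φ M)) : FinLevel M := by
  obtain ⟨L, hL, h1⟩ := h
  refine ⟨L, hL, fun σ hσ => ?_⟩
  refine (Matrix.map_injective hφ) ?_
  show mapRep φ M σ = (1 : Matrix (Fin 2) (Fin 2) A).map φ
  rw [h1 σ hσ, Matrix.map_one _ (map_zero φ) (map_one φ)]

/-- A normalised deformation of type `𝒟` to a test algebra. -/
structure DLift (A : Type) [CommRing A] [IsLocalRing A] [Algebra O A] (M : MatRep A) : Prop where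
  /-- The coefficient ring is a test algebra. -/
  test : IsArtinianTestAlgebra O A
  /-- The matrices reduce to the residual ones. -/
  reduces : Reduces N M
  /-- The matrices are normalised. -/
  normal : IsNormal N M
  /-- The matrix representation is continuous. -/
  cont : MatCont M
  /-- The representation is of type `𝒟`. -/
  cond : 𝒟 (ofMatrix M cont)

variable {N 𝒟}
variable (h𝒟 : IsDeformationCondition O 𝒟)
variable {A B : Type} [CommRing A] [IsLocalRing A] [Algebra O A]
  [CommRing B] [IsLocalRing B] [Algebra O B]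

include h𝒟

theorem DLift.map {M : MatRep A} (h : DLift N 𝒟 A M) (hB : IsArtinianTestAlgebra O B)
    (φ : A →ₐ[O] B) : DLift N 𝒟 B (mapRep (φ : A →+* B) M) := by
  obtain ⟨hA, hred, hn, hc, hd⟩ := h
  have hφ := isLocalHom_of_isTestAlgebra hA φ
  exact ⟨hB, hred.map N φ hφ, hn.map N φ, hc.map _ hφ,
    h𝒟.of_isEquiv hB (isEquiv_baseChangeAlong_ofMatrix _ hφ M hc)
      (h𝒟.baseChangeAlong hA hB φ hφ hd)⟩

theorem DLift.of_map {M : MatRep A} (hA : IsArtinianTestAlgebra O A) (φ : A →ₐ[O] B)
    (hφ : Function.Injective φ) (h : DLift N 𝒟 B (mapRep (φ : A →+* B) M)) : DLift N 𝒟 A M := by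
  obtain ⟨hB, hred, hn, hc, hd⟩ := h
  have hl := isLocalHom_of_isTestAlgebra hA φ
  have hcA : MatCont M := ((hc.finLevel hB).of_map hφ).matCont
  exact ⟨hA, hred.of_map N φ, hn.of_map N φ hφ, hcA,
    h𝒟.of_baseChangeAlong_injective hA hB φ hl hφ
      (h𝒟.of_isEquiv hB (isEquiv_symm (isEquiv_baseChangeAlong_ofMatrix _ hl M hcA)) hd)⟩

omit h𝒟

/-- Restriction of a matrix representation to a subalgebra containing its entries. -/
def restrictRep {B : Type} [CommRing B] [Algebra O B] (S : Subalgebra O B) (M : MatRep B)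
    (h : ∀ σ i j, M σ i j ∈ S) : MatRep S where
  toFun σ := Matrix.of fun i j => ⟨M σ i j, h σ i j⟩
  map_one' := Matrix.ext fun i j => Subtype.ext (by
    show M 1 i j = _
    rw [map_one, Matrix.one_apply, Matrix.one_apply]
    split <;> rfl)
  map_mul' σ τ := Matrix.ext fun i j => Subtype.ext (by
    show M (σ * τ) i j = _
    rw [map_mul, Matrix.mul_apply, Matrix.mul_apply]
    simp)

/-- The pair of two representations, as a representation over the product. -/
def prodRep {A B : Type} [CommRing A] [CommRing B] (M : MatRep A) (M' : MatRep B) :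
    MatRep (A × B) where
  toFun σ := Matrix.of fun i j => (M σ i j, M' σ i j)
  map_one' := Matrix.ext fun i j => by
    show (M 1 i j, M' 1 i j) = _
    rw [map_one, map_one, Matrix.one_apply, Matrix.one_apply, Matrix.one_apply]
    split <;> rfl
  map_mul' σ τ := Matrix.ext fun i j => by
    show (M (σ * τ) i j, M' (σ * τ) i j) = _
    rw [map_mul, map_mul, Matrix.mul_apply, Matrix.mul_apply, Matrix.mul_apply]
    refine Prod.ext ?_ ?_ <;> simp

theorem resPt_eq_residue {A : Type} [CommRing A] [IsLocalRing A] [Algebra O A]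
    (hA : IsArtinianTestAlgebra O A) {M : MatRep A} (h : Reduces N M) (σ : AbsGal) (i j : Fin 2) :
    resPt hA (M σ i j) = IsLocalRing.residue O (N.r0 σ i j) := by
  have := (resPt_eq_zero_iff hA _).mpr (h σ i j)
  rw [map_sub, AlgHom.commutes, sub_eq_zero] at this
  exact this

/-! ### The classifying map out of the power series ring -/

variable [Finite (ResidueField O)] (S : Finset (AbsGal × Fin 2 × Fin 2))

/-- The coordinates `M_s - c_s` of a lift. -/
def coord {A : Type} [CommRing A] [Algebra O A] (N : NormData O) (M : MatRep A) (s : S) : A :=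
  M s.1.1 s.1.2.1 s.1.2.2 - algebraMap O A (N.r0 s.1.1 s.1.2.1 s.1.2.2)

/-- The map `O⟦X⟧ → A` attached to a lift. -/
def psi {M : MatRep A} (h : DLift N 𝒟 A M) : MvPowerSeries S O →ₐ[O] A :=
  evalNilp (maximalIdeal A) (exists_pow_maximalIdeal_eq_bot h.test).choose
    (exists_pow_maximalIdeal_eq_bot h.test).choose_spec (coord S N M) (fun _ => h.reduces _ _ _)

omit [Finite (ResidueField O)] in
theorem psi_X {M : MatRep A} (h : DLift N 𝒟 A M) (s : S) :
    psi S h (MvPowerSeries.X s) = coord S N M s :=
  evalNilp_X _ _ _ _ _ s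

omit [Finite (ResidueField O)] in
theorem psi_unique {M : MatRep A} (h : DLift N 𝒟 A M) (φ : MvPowerSeries S O →ₐ[O] A)
    (hφ : ∀ s, φ (MvPowerSeries.X s) = coord S N M s) : φ = psi S h := by
  obtain ⟨n, hn⟩ := exists_pow_maximalIdeal_eq_bot h.test
  have := isHausdorff_of_pow_eq_bot _ n hn
  exact algHom_ext_of_hausdorff (maximalIdeal A) φ _ (fun s => hφ s ▸ h.reduces _ _ _)
    (fun s => (hφ s).trans (psi_X S h s).symm)

omit [Finite (ResidueField O)] in
theorem comp_psi {M : MatRep A} (h : DLift N 𝒟 A M) (φ : A →ₐ[O] B)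
    (h' : DLift N 𝒟 B (mapRep (φ : A →+* B) M)) : φ.comp (psi S h) = psi S h' := by
  refine psi_unique S h' _ fun s => ?_
  rw [AlgHom.comp_apply, psi_X]
  simp [coord, mapRep_apply]

omit [Finite (ResidueField O)] in
theorem psi_mem_maximalIdeal {M : MatRep A} (h : DLift N 𝒟 A M) {p : MvPowerSeries S O}
    (hp : p ∈ maximalIdeal (MvPowerSeries S O)) : psi S h p ∈ maximalIdeal A := by
  obtain ⟨n, hn⟩ := exists_pow_maximalIdeal_eq_bot h.test
  have hres : resPt h.test (psi S h p) =
      IsLocalRing.residue O (MvPowerSeries.constantCoeff p) := by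
    have hc : p - algebraMap O _ (MvPowerSeries.constantCoeff p) ∈
        Ideal.span (Set.range (MvPowerSeries.X : S → MvPowerSeries S O)) ^ 1 := by
      refine mem_span_X_pow fun x hx => ?_
      have : x = 0 := (Finsupp.degree_eq_zero_iff x).mp (by omega)
      subst this
      simp [MvPowerSeries.algebraMap_apply]
    have h1 := mem_pow_of_algHom (maximalIdeal A) (psi S h)
      (fun s => psi_X S h s ▸ h.reduces _ _ _) 1 _ hc
    rw [pow_one, map_sub, AlgHom.commutes, ← resPt_eq_zero_iff h.test, map_sub, AlgHom.commutes,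
      sub_eq_zero] at h1
    exact h1
  rw [← resPt_eq_zero_iff h.test, hres, residue_eq_zero_iff]
  exact (mem_maximalIdeal_iff_constantCoeff p).mp hp

omit [Finite (ResidueField O)] in
theorem pow_le_ker_psi {M : MatRep A} (h : DLift N 𝒟 A M) :
    ∃ n, maximalIdeal (MvPowerSeries S O) ^ n ≤ RingHom.ker (psi S h) := by
  obtain ⟨n, hn⟩ := exists_pow_maximalIdeal_eq_bot h.test
  refine ⟨n, fun p hp => ?_⟩
  have hle : (maximalIdeal (MvPowerSeries S O)).map (psi S h) ≤ maximalIdeal A :=
    Ideal.map_le_iff_le_comap.mpr fun x hx => psi_mem_maximalIdeal S h hx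
  have := Ideal.pow_right_mono hle n (Ideal.map_pow (psi S h) _ n ▸ Ideal.mem_map_of_mem _ hp)
  rw [hn, Submodule.mem_bot] at this
  exact this

variable [Algebra O (DualNumber (ResidueField O))]

/-- The hypothesis on the finite set `S`: it separates tangent vectors. -/
def Separates (N : NormData O)
    (𝒟 : ∀ ⦃A : Type⦄ [CommRing A] [IsLocalRing A] [Algebra O A], GaloisRepAdic A → Prop) : Prop :=
  (∀ c : O, algebraMap O (DualNumber (ResidueField O)) c =
      TrivSqZeroExt.inl (IsLocalRing.residue O c)) ∧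
    ∀ M M' : MatRep (DualNumber (ResidueField O)),
      DLift N 𝒟 _ M → DLift N 𝒟 _ M' →
      (∀ s ∈ S, M s.1 s.2.1 s.2.2 = M' s.1 s.2.1 s.2.2) → M = M'

/-- The homomorphism to the dual numbers attached to a point and a derivation at it. -/
def dualHom {A : Type} [CommRing A] [Algebra O A]
    (halg : ∀ c : O, algebraMap O (DualNumber (ResidueField O)) c =
      TrivSqZeroExt.inl (IsLocalRing.residue O c))
    (π : A →ₐ[O] ResidueField O) (D : A → ResidueField O) (hadd : ∀ x y, D (x + y) = D x + D y)
    (hmul : ∀ x y, D (x * y) = π x * D y + D x * π y) (hc : ∀ c, D (algebraMap O A c) = 0) :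
    A →ₐ[O] DualNumber (ResidueField O) where
  toFun a := TrivSqZeroExt.inl (π a) + TrivSqZeroExt.inr (D a)
  map_one' := by
    have : D 1 = 0 := by simpa using hc 1
    ext <;> simp [this]
  map_mul' a b := by
    ext
    · simp
    · simp [hmul, mul_comm]
  map_zero' := by
    have : D 0 = 0 := by simpa using hc 0
    ext <;> simp [this]
  map_add' a b := by ext <;> simp [hadd]
  commutes' c := by
    rw [halg]
    ext
    · simp
    · simp [hc]

omit [Finite (ResidueField O)] in
theorem dualHom_fst {A : Type} [CommRing A] [Algebra O A] (halg)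
    (π : A →ₐ[O] ResidueField O) (D : A → ResidueField O) (h1) (h2) (h3) (a : A) :
    (dualHom halg π D h1 h2 h3 a).fst = π a := by simp [dualHom]

omit [Finite (ResidueField O)] in
theorem dualHom_snd {A : Type} [CommRing A] [Algebra O A] (halg)
    (π : A →ₐ[O] ResidueField O) (D : A → ResidueField O) (h1) (h2) (h3) (a : A) :
    (dualHom halg π D h1 h2 h3 a).snd = D a := by simp [dualHom]

theorem isTestAlgebra_dualNumber
    (halg : ∀ c : O, algebraMap O (DualNumber (ResidueField O)) c =
      TrivSqZeroExt.inl (IsLocalRing.residue O c)) :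
    IsArtinianTestAlgebra O (DualNumber (ResidueField O)) := by
  have : Finite (DualNumber (ResidueField O)) :=
    inferInstanceAs (Finite (ResidueField O × ResidueField O))
  let π : DualNumber (ResidueField O) →ₐ[O] ResidueField O :=
    { toFun := TrivSqZeroExt.fst
      map_one' := rfl
      map_mul' := fun _ _ => TrivSqZeroExt.fst_mul _ _
      map_zero' := rfl
      map_add' := fun _ _ => rfl
      commutes' := fun c => by rw [halg]; rfl }
  exact (isTestAlgebra_of_point π fun x hx =>
    TrivSqZeroExt.isUnit_iff_isUnit_fst.mpr (isUnit_iff_ne_zero.mpr hx)).elim fun _ h => h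

variable {S}

include h𝒟

/-- A test algebra generated by the entries of a lift is generated by the entries in `S`. -/
theorem psi_surjective (hS : Separates S N 𝒟)
    {M0 : MatRep (ResidueField O)} (hM0 : DLift N 𝒟 (ResidueField O) M0)
    {M : MatRep A} (h : DLift N 𝒟 A M)
    (hgen : Algebra.adjoin O (Set.range fun t : AbsGal × Fin 2 × Fin 2 =>
      M t.1 t.2.1 t.2.2) = ⊤) : Function.Surjective (psi S h) := by
  classical
  have hA := h.test
  have := finite_of_isTestAlgebra hA
  set ψ := psi S h with hψ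
  set J : Ideal A := (maximalIdeal (MvPowerSeries S O)).map ψ with hJ
  have hJm : J ≤ maximalIdeal A :=
    Ideal.map_le_iff_le_comap.mpr fun x hx => psi_mem_maximalIdeal S h hx
  set W : Ideal A := J ⊔ maximalIdeal A ^ 2 with hW
  have hWm : W ≤ maximalIdeal A := sup_le hJm (Ideal.pow_le_self two_ne_zero)
  -- the ring `A / W` is the residue field
  have hmW : maximalIdeal A ≤ W := by
    intro u hu
    by_contra huW
    let π : A →ₐ[O] ResidueField O := resPt hA
    have hkW : ∀ c ∈ maximalIdeal O, algebraMap O (A ⧸ W) c = 0 := fun c hc' => by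
      rw [← Ideal.Quotient.mk_algebraMap, Ideal.Quotient.eq_zero_iff_mem]
      refine le_sup_left (b := maximalIdeal A ^ 2) (a := J) ?_
      rw [← ψ.commutes]
      exact Ideal.mem_map_of_mem _ (map_nonunit _ _ hc')
    let ι : ResidueField O →+* A ⧸ W := Ideal.Quotient.lift _ (algebraMap O (A ⧸ W)) hkW
    have hι : ∀ c, ι (IsLocalRing.residue O c) = algebraMap O (A ⧸ W) c := fun c => rfl
    let _ : Algebra (ResidueField O) (A ⧸ W) := ι.toAlgebra
    let π1 : A ⧸ W →ₐ[O] ResidueField O :=
      Ideal.Quotient.liftₐ W π fun a ha => (resPt_eq_zero_iff hA a).mpr (hWm ha)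
    have hπ1ι : ∀ a, π1 (ι a) = a := fun a => by
      obtain ⟨c, rfl⟩ := IsLocalRing.residue_surjective a
      rw [hι, AlgHom.commutes]
      rfl
    obtain ⟨g, hg⟩ : ∃ g : Module.Dual (ResidueField O) (A ⧸ W),
        g (Ideal.Quotient.mk W u) ≠ 0 := by
      by_contra hne
      push Not at hne
      exact huW (Ideal.Quotient.eq_zero_iff_mem.mp
        ((Module.forall_dual_apply_eq_zero_iff _ _).mp hne))
    let D : A ⧸ W → ResidueField O := fun x => g (x - ι (π1 x))
    have hsq : ∀ x y : A ⧸ W, (x - ι (π1 x)) * (y - ι (π1 y)) = 0 := by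
      have hmem : ∀ x : A ⧸ W, ∃ a ∈ maximalIdeal A, Ideal.Quotient.mk W a = x - ι (π1 x) := by
        intro x
        obtain ⟨a, ha⟩ := Ideal.Quotient.mk_surjective (x - ι (π1 x))
        refine ⟨a, ?_, ha⟩
        rw [← resPt_eq_zero_iff hA]
        show π1 (Ideal.Quotient.mk W a) = 0
        rw [ha, map_sub, hπ1ι, sub_self]
      intro x y
      obtain ⟨a, ha, ha'⟩ := hmem x
      obtain ⟨b, hb, hb'⟩ := hmem y
      rw [← ha', ← hb', ← map_mul, Ideal.Quotient.eq_zero_iff_mem]
      exact le_sup_right (a := J) (sq (maximalIdeal A) ▸ Ideal.mul_mem_mul ha hb)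
    have hDadd : ∀ x y, D (x + y) = D x + D y := fun x y => by
      show g (x + y - ι (π1 (x + y))) = g (x - ι (π1 x)) + g (y - ι (π1 y))
      rw [map_add π1, map_add ι, ← map_add g]
      congr 1
      abel
    have hDmul : ∀ x y, D (x * y) = π1 x * D y + D x * π1 y := fun x y => by
      simp only [D, map_mul]
      have e : x * y - ι (π1 x) * ι (π1 y) =
          π1 x • (y - ι (π1 y)) + π1 y • (x - ι (π1 x)) := by
        rw [Algebra.smul_def, Algebra.smul_def, RingHom.algebraMap_toAlgebra]
        linear_combination hsq x y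
      rw [e, map_add, map_smul, map_smul, smul_eq_mul, smul_eq_mul, mul_comm (π1 y)]
    have hDalg : ∀ c, D (algebraMap O (A ⧸ W) c) = 0 := fun c => by
      simp only [D, AlgHom.commutes]
      rw [show ι (algebraMap O (ResidueField O) c) = algebraMap O (A ⧸ W) c from hι c, sub_self,
        map_zero]
    let q : A →ₐ[O] DualNumber (ResidueField O) :=
      dualHom hS.1 π (fun a => D (Ideal.Quotient.mk W a))
        (fun a b => by rw [map_add]; exact hDadd _ _)
        (fun a b => by rw [map_mul]; exact hDmul _ _)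
        (fun c => hDalg c)
    have hqs : ∀ a, (q a).snd = D (Ideal.Quotient.mk W a) := fun a => dualHom_snd _ _ _ _ _ _ a
    have hqf : ∀ a, (q a).fst = π a := fun a => dualHom_fst _ _ _ _ _ _ a
    let inlk : ResidueField O →ₐ[O] DualNumber (ResidueField O) :=
      { toRingHom := TrivSqZeroExt.inlHom (ResidueField O) (ResidueField O)
        commutes' := fun c => by rw [hS.1]; rfl }
    have hE := isTestAlgebra_dualNumber hS.1
    have hD1 := DLift.map h𝒟 h hE q
    have hD0 := DLift.map h𝒟 hM0 hE inlk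
    have hM0' : ∀ σ i j, M0 σ i j = IsLocalRing.residue O (N.r0 σ i j) := by
      intro σ i j
      have := hM0.reduces σ i j
      rw [← residue_eq_zero_iff, map_sub, sub_eq_zero] at this
      exact (RingHom.injective _) this
    have heq : mapRep (q : A →+* DualNumber (ResidueField O)) M =
        mapRep (inlk : ResidueField O →+* DualNumber (ResidueField O)) M0 := by
      refine hS.2 _ _ hD1 hD0 fun s hs => ?_
      have hX : M s.1 s.2.1 s.2.2 - algebraMap O A (N.r0 s.1 s.2.1 s.2.2) ∈ J := by
        rw [show M s.1 s.2.1 s.2.2 - algebraMap O A (N.r0 s.1 s.2.1 s.2.2) =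
          ψ (MvPowerSeries.X ⟨s, hs⟩) from (psi_X S h ⟨s, hs⟩).symm]
        exact Ideal.mem_map_of_mem _ (X_mem_maximalIdeal _)
      have hq0 : ∀ a ∈ J, q a = 0 := fun a ha => by
        have h0 : Ideal.Quotient.mk W a = 0 :=
          Ideal.Quotient.eq_zero_iff_mem.mpr (le_sup_left (b := maximalIdeal A ^ 2) ha)
        ext
        · rw [hqf, TrivSqZeroExt.fst_zero]
          exact (resPt_eq_zero_iff hA a).mpr (hJm ha)
        · rw [hqs, h0, TrivSqZeroExt.snd_zero]
          show g (0 - ι (π1 0)) = 0
          rw [map_zero, map_zero, sub_zero, map_zero]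
      have := hq0 _ hX
      rw [map_sub, sub_eq_zero, AlgHom.commutes, hS.1] at this
      show q (M s.1 s.2.1 s.2.2) = inlk (M0 s.1 s.2.1 s.2.2)
      rw [this, hM0']
      rfl
    have hsnd : ∀ a, (q a).snd = 0 := by
      intro a
      have ha : a ∈ Algebra.adjoin O (Set.range fun t : AbsGal × Fin 2 × Fin 2 =>
          M t.1 t.2.1 t.2.2) := hgen ▸ Algebra.mem_top
      induction ha using Algebra.adjoin_induction with
      | mem x hx =>
        obtain ⟨t, rfl⟩ := hx
        have := congr_fun (congr_fun (DFunLike.congr_fun heq t.1) t.2.1) t.2.2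
        rw [mapRep_apply, mapRep_apply] at this
        show TrivSqZeroExt.snd ((q : A →+* DualNumber (ResidueField O)) (M t.1 t.2.1 t.2.2)) = 0
        rw [this]
        rfl
      | algebraMap c => rw [AlgHom.commutes, hS.1]; rfl
      | add x y _ _ hx hy => rw [map_add, TrivSqZeroExt.snd_add, hx, hy, add_zero]
      | mul x y _ _ hx hy => rw [map_mul, TrivSqZeroExt.snd_mul, hx, hy]; simp
    have := hsnd u
    have hu0 : π1 (Ideal.Quotient.mk W u) = 0 := (resPt_eq_zero_iff hA u).mpr hu
    rw [hqs] at this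
    change g (Ideal.Quotient.mk W u - ι (π1 (Ideal.Quotient.mk W u))) = 0 at this
    rw [hu0, map_zero, sub_zero] at this
    exact hg this
  -- hence the image of the maximal ideal generates the maximal ideal
  have hmJ : maximalIdeal A ≤ J := by
    refine Submodule.le_of_le_smul_of_le_jacobson_bot (I := maximalIdeal A)
      (IsNoetherian.noetherian _) (maximalIdeal_le_jacobson _) ?_
    rw [smul_eq_mul, ← sq]
    exact hmW
  -- Nakayama over the power series ring
  let _ : Algebra (MvPowerSeries S O) A := ψ.toRingHom.toAlgebra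
  have : Module.Finite (MvPowerSeries S O) A := Module.Finite.of_finite
  have htop : (⊤ : Submodule (MvPowerSeries S O) A) ≤
      LinearMap.range (Algebra.linearMap (MvPowerSeries S O) A) := by
    refine Submodule.le_of_le_smul_of_le_jacobson_bot (I := maximalIdeal (MvPowerSeries S O))
      Module.Finite.fg_top (maximalIdeal_le_jacobson _) ?_
    rintro a -
    obtain ⟨c, hc'⟩ := hA.residue_surjective (IsLocalRing.residue A a)
    have ham : a - algebraMap O A c ∈ J := hmJ (by
      rw [← residue_eq_zero_iff, map_sub]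
      simp only [Function.comp_apply] at hc'
      rw [hc', sub_self])
    rw [Submodule.mem_sup]
    refine ⟨algebraMap O A c, ⟨algebraMap O _ c, ψ.commutes c⟩, a - algebraMap O A c, ?_, by abel⟩
    rw [Ideal.smul_top_eq_map]
    exact ham
  intro a
  obtain ⟨p, hp⟩ := htop (Submodule.mem_top (x := a))
  exact ⟨p, hp⟩

/-- Every lift factors through one generated by its entries in `S`. -/
theorem exists_gen (hS : Separates S N 𝒟)
    {M0 : MatRep (ResidueField O)} (hM0 : DLift N 𝒟 (ResidueField O) M0)
    {M : MatRep A} (h : DLift N 𝒟 A M) :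
    ∃ (B : Type) (_ : CommRing B) (_ : IsLocalRing B) (_ : Algebra O B) (ι : B →ₐ[O] A)
      (M' : MatRep B) (h' : DLift N 𝒟 B M'), Function.Injective ι ∧
        Function.Surjective (psi S h') ∧ mapRep (ι : B →+* A) M' = M ∧
        ι.comp (psi S h') = psi S h := by
  set B := Algebra.adjoin O (Set.range fun t : AbsGal × Fin 2 × Fin 2 => M t.1 t.2.1 t.2.2)
    with hB
  obtain ⟨hl, hBt⟩ := isTestAlgebra_subalgebra h.test B
  let M' : MatRep B := restrictRep B M fun σ i j => Algebra.subset_adjoin ⟨(σ, i, j), rfl⟩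
  have h' : DLift N 𝒟 B M' := DLift.of_map h𝒟 hBt B.val Subtype.val_injective h
  have hgen : Algebra.adjoin O (Set.range fun t : AbsGal × Fin 2 × Fin 2 =>
      M' t.1 t.2.1 t.2.2) = ⊤ := by
    refine Subalgebra.map_injective (f := B.val) Subtype.val_injective ?_
    rw [AlgHom.map_adjoin, Algebra.map_top, Subalgebra.range_val, ← Set.range_comp]
    rfl
  refine ⟨B, inferInstance, hl, inferInstance, B.val, M', h', Subtype.val_injective,
    psi_surjective h𝒟 hS hM0 h' hgen, rfl, ?_⟩
  exact comp_psi S h' B.val h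

theorem exists_entry (hS : Separates S N 𝒟)
    {M0 : MatRep (ResidueField O)} (hM0 : DLift N 𝒟 (ResidueField O) M0)
    {M : MatRep A} (h : DLift N 𝒟 A M) (σ : AbsGal) (i j : Fin 2) :
    ∃ e, psi S h e = M σ i j := by
  obtain ⟨B', _, _, _, ι, M', h', hι, hsurj, hmap, hcomp⟩ := exists_gen h𝒟 hS hM0 h
  obtain ⟨e, he⟩ := hsurj (M' σ i j)
  refine ⟨e, ?_⟩
  rw [← hcomp, AlgHom.comp_apply, he, ← hmap]
  rfl

omit [Algebra O (DualNumber (ResidueField O))] in
/-- Two lifts are dominated by a third one. -/
theorem exists_dominating {M : MatRep A} (h : DLift N 𝒟 A M) {M' : MatRep B}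
    (h' : DLift N 𝒟 B M') :
    ∃ (P : Type) (_ : CommRing P) (_ : IsLocalRing P) (_ : Algebra O P) (pA : P →ₐ[O] A)
      (pB : P →ₐ[O] B) (M'' : MatRep P) (_ : DLift N 𝒟 P M''),
        Function.Injective (fun x => (pA x, pB x)) ∧
        mapRep (pA : P →+* A) M'' = M ∧ mapRep (pB : P →+* B) M'' = M' := by
  obtain ⟨hA, hred, hn, hc, hd⟩ := id h
  obtain ⟨hB, hred', hn', hc', hd'⟩ := id h'
  have := finite_of_isTestAlgebra hA
  have := finite_of_isTestAlgebra hB
  let P : Subalgebra O (A × B) :=
    AlgHom.equalizer ((resPt hA).comp (AlgHom.fst O A B)) ((resPt hB).comp (AlgHom.snd O A B))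
  obtain ⟨hl, hP⟩ : ∃ _ : IsLocalRing P, IsArtinianTestAlgebra O P := by
    refine isTestAlgebra_of_point (((resPt hA).comp (AlgHom.fst O A B)).comp P.val) fun x hx => ?_
    refine isUnit_of_coe_isUnit P (Prod.isUnit_iff.mpr ⟨isUnit_of_resPt_ne_zero hA hx, ?_⟩)
    refine isUnit_of_resPt_ne_zero hB ?_
    have heq : resPt hA (x : A × B).1 = resPt hB (x : A × B).2 := x.2
    rw [← heq]
    exact hx
  let pA : P →ₐ[O] A := (AlgHom.fst O A B).comp P.val
  let pB : P →ₐ[O] B := (AlgHom.snd O A B).comp P.val
  let M'' : MatRep P := restrictRep P (prodRep M M') fun σ i j => by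
    show resPt hA (M σ i j) = resPt hB (M' σ i j)
    rw [resPt_eq_residue hA hred, resPt_eq_residue hB hred']
  have hmA : mapRep (pA : P →+* A) M'' = M := rfl
  have hmB : mapRep (pB : P →+* B) M'' = M' := rfl
  have hinj : Function.Injective (fun x => (pA x, pB x)) := fun x y hxy => Subtype.ext hxy
  have hlA := isLocalHom_of_isTestAlgebra hP pA
  have hlB := isLocalHom_of_isTestAlgebra hP pB
  obtain ⟨L, hL, hL1⟩ := hc.finLevel hA
  obtain ⟨L', hL', hL1'⟩ := hc'.finLevel hB
  have hfin : FinLevel M'' := by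
    refine ⟨L ⊔ L', IntermediateField.finiteDimensional_sup L L', fun σ hσ =>
      Matrix.ext fun i j => Subtype.ext ?_⟩
    show (M σ i j, M' σ i j) = _
    rw [hL1 σ fun x hx => hσ x (le_sup_left (b := L') hx),
      hL1' σ fun x hx => hσ x (le_sup_right (a := L) hx)]
    simp only [Matrix.one_apply]
    split <;> rfl
  have hc'' : MatCont M'' := hfin.matCont
  have hd'' : 𝒟 (ofMatrix M'' hc'') := by
    refine h𝒟.of_fibreProduct hA hB isTestAlgebra_residueField hP (resPt hA) (resPt hB) pA pB
      hlA hlB (AlgHom.ext fun x => x.2) hinj (fun a b hab => ⟨⟨(a, b), hab⟩, rfl, rfl⟩) ?_ ?_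
    · exact h𝒟.of_isEquiv hA
        (isEquiv_symm (isEquiv_baseChangeAlong_ofMatrix _ hlA M'' hc'')) hd
    · exact h𝒟.of_isEquiv hB
        (isEquiv_symm (isEquiv_baseChangeAlong_ofMatrix _ hlB M'' hc'')) hd'
  have hred'' : Reduces N M'' := hred.of_map N pA
  have hkey : ∀ (c : AbsGal →₀ O) (i j : Fin 2) (z : P), comb c M i j = pA z →
      comb c M' i j = pB z → comb c M'' i j = z := fun c i j z h1 h2 => by
    refine hinj (Prod.ext ?_ ?_)
    · show pA (comb c M'' i j) = pA z
      rw [← comb_mapRep pA c M'' i j, hmA, h1]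
    · show pB (comb c M'' i j) = pB z
      rw [← comb_mapRep pB c M'' i j, hmB, h2]
  have hn'' : IsNormal N M'' :=
    ⟨hkey _ _ _ _ (hn.1.trans (map_zero pA).symm) (hn'.1.trans (map_zero pB).symm),
      hkey _ _ _ _ (hn.2.1.trans (map_zero pA).symm) (hn'.2.1.trans (map_zero pB).symm),
      hkey _ _ _ _ (hn.2.2.trans (map_one pA).symm) (hn'.2.2.trans (map_one pB).symm)⟩
  exact ⟨P, inferInstance, hl, inferInstance, pA, pB, M'', ⟨hP, hred'', hn'', hc'', hd''⟩, hinj,
    hmA, hmB⟩

end FLTAgent.DefRing
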