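import Mathlib.RingTheory.AdicCompletion.RingHom
import Mathlib.RingTheory.AdicCompletion.Algebra
import Fermat.Agent.DefRing.Generation
import Fermat.Prelude.Def_GaloisRep_DeformationRingData
import Fermat.Prelude.Thm_IsLocalRing_isAdicComplete_of_module_finite

/-!
# The universal deformation ring

The ring is `O⟦X_s : s ∈ S⟧` modulo the intersection `univKernel` of the kernels of all normalised
deformations to test algebras.  `nonempty_deformationRingData_of` shows that it carries the
universal deformation, given normalisation data and a set `S` separating tangent vectors.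
-/

set_option autoImplicit false

open IsLocalRing GaloisRep

noncomputable section

namespace FLTAgent.DefRing

variable {O : Type} [CommRing O] [IsLocalRing O] [Finite (ResidueField O)]
  {N : NormData O}
  {𝒟 : ∀ ⦃A : Type⦄ [CommRing A] [IsLocalRing A] [Algebra O A], GaloisRepAdic A → Prop}
  {S : Finset (AbsGal × Fin 2 × Fin 2)} [Algebra O (DualNumber (ResidueField O))]

/-- Shortcut for the finiteness of the set of variables, which the power series instances need. -/
local instance finite_separatingSet : Finite S := Finite.of_fintype _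

/-- The kernels of the classifying maps of deformations to test algebras. -/
def pointKernels (S : Finset (AbsGal × Fin 2 × Fin 2)) (N : NormData O)
    (𝒟 : ∀ ⦃A : Type⦄ [CommRing A] [IsLocalRing A] [Algebra O A], GaloisRepAdic A → Prop) :
    Set (Ideal (MvPowerSeries S O)) :=
  {I | ∃ (A : Type) (_ : CommRing A) (_ : IsLocalRing A) (_ : Algebra O A) (M : MatRep A)
    (h : DLift N 𝒟 A M), Function.Surjective (psi S h) ∧ RingHom.ker (psi S h) = I}

/-- The kernel of the universal classifying map. -/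
def univKernel (S : Finset (AbsGal × Fin 2 × Fin 2)) (N : NormData O)
    (𝒟 : ∀ ⦃A : Type⦄ [CommRing A] [IsLocalRing A] [Algebra O A], GaloisRepAdic A → Prop) :
    Ideal (MvPowerSeries S O) :=
  sInf (pointKernels S N 𝒟)

variable (h𝒟 : IsDeformationCondition O 𝒟) (hS : Separates S N 𝒟)
  {M0 : MatRep (ResidueField O)} (hM0 : DLift N 𝒟 (ResidueField O) M0)
  {A : Type} [CommRing A] [IsLocalRing A] [Algebra O A]

include h𝒟 hS hM0

theorem ker_psi_mem_pointKernels {M : MatRep A} (h : DLift N 𝒟 A M) :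
    RingHom.ker (psi S h) ∈ pointKernels S N 𝒟 := by
  obtain ⟨B, i1, i2, i3, ι, M', h', hι, hsurj, hmap, hcomp⟩ := exists_gen h𝒟 hS hM0 h
  refine ⟨B, i1, i2, i3, M', h', hsurj, ?_⟩
  rw [← hcomp]
  ext p
  simp [RingHom.mem_ker, map_eq_zero_iff _ hι]

theorem univKernel_le_ker {M : MatRep A} (h : DLift N 𝒟 A M) :
    univKernel S N 𝒟 ≤ RingHom.ker (psi S h) :=
  sInf_le (ker_psi_mem_pointKernels h𝒟 hS hM0 h)

theorem inf_mem_pointKernels {I I' : Ideal (MvPowerSeries S O)} (hI : I ∈ pointKernels S N 𝒟)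
    (hI' : I' ∈ pointKernels S N 𝒟) : I ⊓ I' ∈ pointKernels S N 𝒟 := by
  obtain ⟨A₁, _, _, _, M, h, -, rfl⟩ := hI
  obtain ⟨A₂, _, _, _, M', h', -, rfl⟩ := hI'
  obtain ⟨P, _, _, _, pA, pB, M'', h'', hinj, rfl, rfl⟩ := exists_dominating h𝒟 h h'
  convert ker_psi_mem_pointKernels h𝒟 hS hM0 h'' using 1
  ext p
  rw [Ideal.mem_inf, RingHom.mem_ker, RingHom.mem_ker, RingHom.mem_ker, ← comp_psi S h'' pA h,
    ← comp_psi S h'' pB h', AlgHom.comp_apply, AlgHom.comp_apply]
  refine ⟨fun hp => hinj (Prod.ext ?_ ?_), fun hp => by simp [hp]⟩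
  · simpa using hp.1
  · simpa using hp.2

/-- The entries of all deformations are given by one family of power series. -/
theorem exists_common_entry {B : Type} [CommRing B] [IsLocalRing B] [Algebra O B]
    {M : MatRep A} (h : DLift N 𝒟 A M) {M' : MatRep B} (h' : DLift N 𝒟 B M')
    (σ : AbsGal) (i j : Fin 2) :
    ∃ e, psi S h e = M σ i j ∧ psi S h' e = M' σ i j := by
  obtain ⟨P, _, _, _, pA, pB, M'', h'', hinj, rfl, rfl⟩ := exists_dominating h𝒟 h h'
  obtain ⟨e, he⟩ := exists_entry h𝒟 hS hM0 h'' σ i j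
  refine ⟨e, ?_, ?_⟩
  · rw [← comp_psi S h'' pA h, AlgHom.comp_apply, he]; rfl
  · rw [← comp_psi S h'' pB h', AlgHom.comp_apply, he]; rfl

variable [IsNoetherianRing O] [IsPrecomplete (maximalIdeal O) O]

omit [IsPrecomplete (maximalIdeal O) O] in
/-- For every level there is a smallest point kernel containing that power of the maximal ideal. -/
theorem exists_least_pointKernel (n : ℕ) :
    ∃ I ∈ pointKernels S N 𝒟, maximalIdeal (MvPowerSeries S O) ^ (n + 1) ≤ I ∧
      ∀ I' ∈ pointKernels S N 𝒟, maximalIdeal (MvPowerSeries S O) ^ (n + 1) ≤ I' → I ≤ I' := by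
  classical
  have hfr : Finite (ResidueField (MvPowerSeries S O)) :=
    finite_residueField_of_surjective (O := O) residue_algebraMap_surjective_mvPowerSeries
  have := finite_quotient_maximalIdeal_pow (Λ := MvPowerSeries S O) (n + 1)
  set T := {I | I ∈ pointKernels S N 𝒟 ∧ maximalIdeal (MvPowerSeries S O) ^ (n + 1) ≤ I}
  have hfin : T.Finite := by
    refine Set.Finite.of_finite_image
      (f := fun I : Ideal (MvPowerSeries S O) => (SetLike.coe
        (I.map (Ideal.Quotient.mk (maximalIdeal (MvPowerSeries S O) ^ (n + 1)))) :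
          Set (MvPowerSeries S O ⧸ maximalIdeal (MvPowerSeries S O) ^ (n + 1))))
      (Set.toFinite _) ?_
    intro I hI I' hI' he
    have := congr_arg (Ideal.comap (Ideal.Quotient.mk (maximalIdeal (MvPowerSeries S O) ^ (n + 1))))
      (SetLike.coe_injective he)
    rwa [Ideal.comap_map_of_surjective _ Ideal.Quotient.mk_surjective,
      Ideal.comap_map_of_surjective _ Ideal.Quotient.mk_surjective, ← RingHom.ker_eq_comap_bot,
      Ideal.mk_ker, sup_eq_left.mpr hI.2, sup_eq_left.mpr hI'.2] at this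
  have hne : T.Nonempty := by
    refine ⟨_, ker_psi_mem_pointKernels h𝒟 hS hM0 hM0, fun p hp => ?_⟩
    have := psi_mem_maximalIdeal S hM0 (Ideal.pow_le_self n.succ_ne_zero hp)
    rwa [IsLocalRing.maximalIdeal_eq_bot, Submodule.mem_bot] at this
  obtain ⟨I, hI, hmin⟩ := hfin.exists_minimal hne
  refine ⟨I, hI.1, hI.2, fun I' h1 h2 => ?_⟩
  exact (hmin ⟨inf_mem_pointKernels h𝒟 hS hM0 hI.1 h1, le_inf hI.2 h2⟩ inf_le_left).trans
    inf_le_right

omit [IsPrecomplete (maximalIdeal O) O] in
/-- A decreasing sequence of point kernels cofinal among all point kernels. -/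
theorem exists_cofinal :
    ∃ K : ℕ → Ideal (MvPowerSeries S O), (∀ n, K n ∈ pointKernels S N 𝒟) ∧
      (∀ n, K (n + 1) ≤ K n) ∧ (∀ n, maximalIdeal (MvPowerSeries S O) ^ (n + 1) ≤ K n) ∧
      (∀ I ∈ pointKernels S N 𝒟, ∃ n, K n ≤ I) ∧ (⨅ n, K n) = univKernel S N 𝒟 := by
  choose K hK hKpow hKmin using exists_least_pointKernel h𝒟 hS hM0
  have hcof : ∀ I ∈ pointKernels S N 𝒟, ∃ n, K n ≤ I := by
    intro I hI
    obtain ⟨A', _, _, _, M, h, -, rfl⟩ := id hI
    obtain ⟨m, hm⟩ := pow_le_ker_psi S h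
    exact ⟨m, hKmin m _ hI ((Ideal.pow_le_pow_right m.le_succ).trans hm)⟩
  refine ⟨K, hK, fun n => hKmin _ _ (hK n)
    ((Ideal.pow_le_pow_right (Nat.le_succ _)).trans (hKpow n)), hKpow, hcof,
    le_antisymm (le_sInf fun I hI => ?_) (le_iInf fun n => sInf_le (hK n))⟩
  obtain ⟨n, hn⟩ := hcof I hI
  exact (iInf_le _ n).trans hn

/-- The universal entries. -/
theorem exists_universal_entry (σ : AbsGal) (i j : Fin 2) :
    ∃ r : MvPowerSeries S O, ∀ (A : Type) [CommRing A] [IsLocalRing A] [Algebra O A]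
      (M : MatRep A) (h : DLift N 𝒟 A M), psi S h r = M σ i j := by
  obtain ⟨K, hK, hanti, hpow, hcof, -⟩ := exists_cofinal h𝒟 hS hM0
  choose A' i1 i2 i3 M' h' hsurj hker using hK
  have hfr : Finite (ResidueField (MvPowerSeries S O)) :=
    finite_residueField_of_surjective (O := O) residue_algebraMap_surjective_mvPowerSeries
  choose r hr using fun n => hsurj n (M' n σ i j)
  have hsub : ∀ n e, psi S (h' n) e = M' n σ i j → e - r n ∈ K n := fun n e he => by
    rw [← hker n, RingHom.mem_ker, map_sub, he, hr, sub_self]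
  have hcomp : ∀ n, r (n + 1) - r n ∈ K n := fun n => by
    obtain ⟨e, he, he'⟩ := exists_common_entry h𝒟 hS hM0 (h' n) (h' (n + 1)) σ i j
    have h1 := hsub n e he
    have h2 := hanti n (hsub (n + 1) e he')
    simpa using sub_mem h1 h2
  obtain ⟨x, hx⟩ := exists_forall_sub_mem K hanti (fun n => ⟨n + 1, hpow n⟩) r hcomp
  refine ⟨x, fun B _ _ _ M h => ?_⟩
  obtain ⟨n, hn⟩ := hcof _ (ker_psi_mem_pointKernels h𝒟 hS hM0 h)
  obtain ⟨e, he, he'⟩ := exists_common_entry h𝒟 hS hM0 h (h' n) σ i j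
  have h1 := hn (sub_mem (hx n) (hsub n e he'))
  rw [sub_sub_sub_cancel_right, RingHom.mem_ker, map_sub, he, sub_eq_zero] at h1
  exact h1

omit [IsNoetherianRing O] [IsPrecomplete (maximalIdeal O) O] in
theorem mem_univKernel_iff (p : MvPowerSeries S O) :
    p ∈ univKernel S N 𝒟 ↔ ∀ (A : Type) [CommRing A] [IsLocalRing A] [Algebra O A]
      (M : MatRep A) (h : DLift N 𝒟 A M), psi S h p = 0 := by
  refine ⟨fun hp B _ _ _ M h => univKernel_le_ker h𝒟 hS hM0 h hp, fun hp => ?_⟩
  rw [univKernel, Submodule.mem_sInf]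
  rintro I ⟨B, _, _, _, M, h, -, rfl⟩
  exact hp B M h

/-- The candidate universal deformation ring. -/
abbrev UnivDefRing (S : Finset (AbsGal × Fin 2 × Fin 2)) (N : NormData O)
    (𝒟 : ∀ ⦃A : Type⦄ [CommRing A] [IsLocalRing A] [Algebra O A], GaloisRepAdic A → Prop) :
    Type :=
  MvPowerSeries S O ⧸ univKernel S N 𝒟

omit [IsNoetherianRing O] [IsPrecomplete (maximalIdeal O) O] in
/-- The universal kernel is proper, as the residual deformation exists. -/
private theorem univKernel_le_maximalIdeal :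
    univKernel S N 𝒟 ≤ maximalIdeal (MvPowerSeries S O) := by
  refine IsLocalRing.le_maximalIdeal fun htop => ?_
  have := (mem_univKernel_iff h𝒟 hS hM0 1).mp (htop ▸ Submodule.mem_top) _ M0 hM0
  simp at this

/-- Modulo any power of the maximal ideal `univKernel` is the kernel of a single deformation. -/
private theorem exists_ker_psi_le_sup (n : ℕ) :
    ∃ (B : Type) (_ : CommRing B) (_ : IsLocalRing B) (_ : Algebra O B) (M : MatRep B)
      (h : DLift N 𝒟 B M), Function.Surjective (psi S h) ∧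
        RingHom.ker (psi S h) ≤ univKernel S N 𝒟 ⊔ maximalIdeal (MvPowerSeries S O) ^ n := by
  have hfr : Finite (ResidueField (MvPowerSeries S O)) :=
    finite_residueField_of_surjective (O := O) residue_algebraMap_surjective_mvPowerSeries
  obtain ⟨K, hK, hanti, hpow, -, hinf⟩ := exists_cofinal h𝒟 hS hM0
  obtain ⟨m, hm⟩ := exists_le_sup_maximalIdeal_pow K hanti (fun k => ⟨k + 1, hpow k⟩) n
  obtain ⟨B, i1, i2, i3, M, h, hsurj, hker⟩ := hK m
  exact ⟨B, i1, i2, i3, M, h, hsurj, hker ▸ hinf ▸ hm⟩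

omit [IsNoetherianRing O] [IsPrecomplete (maximalIdeal O) O] in
/-- Equality in the universal ring is tested on the deformations to test algebras. -/
private theorem mk_eq_mk_iff (p q : MvPowerSeries S O) :
    Ideal.Quotient.mk (univKernel S N 𝒟) p = Ideal.Quotient.mk (univKernel S N 𝒟) q ↔
      ∀ (A : Type) [CommRing A] [IsLocalRing A] [Algebra O A] (M : MatRep A)
        (h : DLift N 𝒟 A M), psi S h p = psi S h q := by
  rw [Ideal.Quotient.eq, mem_univKernel_iff h𝒟 hS hM0]
  simp only [map_sub, sub_eq_zero]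

section UniversalRep

variable {r : AbsGal → Fin 2 → Fin 2 → MvPowerSeries S O}
  (hr : ∀ σ i j (A : Type) [CommRing A] [IsLocalRing A] [Algebra O A] (M : MatRep A)
    (h : DLift N 𝒟 A M), psi S h (r σ i j) = M σ i j)

include hr

omit [IsNoetherianRing O] [IsPrecomplete (maximalIdeal O) O] in
/-- The universal entries form a representation over the universal ring. -/
private theorem exists_universalRep :
    ∃ MR : MatRep (UnivDefRing S N 𝒟),
      ∀ σ i j, MR σ i j = Ideal.Quotient.mk (univKernel S N 𝒟) (r σ i j) := by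
  refine ⟨
    { toFun := fun σ => Matrix.of fun i j => Ideal.Quotient.mk (univKernel S N 𝒟) (r σ i j)
      map_one' := Matrix.ext fun i j => ?_
      map_mul' := fun σ τ => Matrix.ext fun i j => ?_ }, fun σ i j => rfl⟩
  · rw [Matrix.of_apply, (mk_eq_mk_iff h𝒟 hS hM0 (r 1 i j)
      ((1 : Matrix (Fin 2) (Fin 2) (MvPowerSeries S O)) i j)).mpr fun B _ _ _ M h => by
        rw [hr, map_one M, Matrix.one_apply, Matrix.one_apply]
        split <;> simp, Matrix.one_apply, Matrix.one_apply]
    split <;> simp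
  · rw [Matrix.of_apply, (mk_eq_mk_iff h𝒟 hS hM0 (r (σ * τ) i j)
      (∑ l, r σ i l * r τ l j)).mpr fun B _ _ _ M h => by
        rw [hr, map_mul M, Matrix.mul_apply, map_sum]
        simp only [map_mul, hr], map_sum, Matrix.mul_apply]
    simp only [map_mul, Matrix.of_apply]

variable {MR : MatRep (UnivDefRing S N 𝒟)}
  (hMR : ∀ σ i j, MR σ i j = Ideal.Quotient.mk (univKernel S N 𝒟) (r σ i j))

include hMR

omit [IsNoetherianRing O] [IsPrecomplete (maximalIdeal O) O] in
/-- The universal representation is normal. -/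
private theorem isNormal_universalRep : IsNormal N MR := by
  have key : ∀ (c : AbsGal →₀ O) (i j : Fin 2) (z : MvPowerSeries S O),
      (∀ (A : Type) [CommRing A] [IsLocalRing A] [Algebra O A] (M : MatRep A)
        (h : DLift N 𝒟 A M), comb c M i j = psi S h z) →
      comb c MR i j = Ideal.Quotient.mk (univKernel S N 𝒟) z := by
    intro c i j z hz
    have e : comb c MR i j = Ideal.Quotient.mk (univKernel S N 𝒟)
        (∑ σ ∈ c.support, algebraMap O (MvPowerSeries S O) (c σ) * r σ i j) := by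
      rw [comb_apply, map_sum]
      simp only [map_mul, Ideal.Quotient.mk_algebraMap, hMR]
    rw [e]
    refine (mk_eq_mk_iff h𝒟 hS hM0 _ _).mpr fun B _ _ _ M h => ?_
    rw [← hz B M h, comb_apply, map_sum]
    simp only [map_mul, AlgHom.commutes, hr]
  refine ⟨?_, ?_, ?_⟩
  · rw [key N.cX 1 0 0 fun B _ _ _ M h => by rw [h.normal.1, map_zero], map_zero]
  · rw [key N.cY 0 0 0 fun B _ _ _ M h => by rw [h.normal.2.1, map_zero], map_zero]
  · rw [key N.cY 1 0 1 fun B _ _ _ M h => by rw [h.normal.2.2, map_one], map_one]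

variable [IsLocalRing (UnivDefRing S N 𝒟)]

omit h𝒟 hS [Finite (ResidueField O)] [Algebra O (DualNumber (ResidueField O))]
  [IsNoetherianRing O] [IsPrecomplete (maximalIdeal O) O] in
/-- The universal representation reduces to the residual one. -/
private theorem reduces_universalRep : Reduces N MR := fun σ i j => by
  have := IsLocalHom.of_surjective (Ideal.Quotient.mk (univKernel S N 𝒟))
    Ideal.Quotient.mk_surjective
  rw [hMR, ← Ideal.Quotient.mk_algebraMap, ← map_sub]
  refine map_nonunit _ _ ((mem_maximalIdeal _).mpr fun hu => ?_)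
  have h0 := hu.map (psi S hM0)
  rw [map_sub, hr, AlgHom.commutes] at h0
  exact hM0.reduces σ i j h0

/-- The universal representation is continuous. -/
private theorem matCont_universalRep : MatCont MR := by
  intro n
  obtain ⟨B, _, _, _, M, h, -, hker⟩ := exists_ker_psi_le_sup h𝒟 hS hM0 n
  obtain ⟨L, hL, hL1⟩ := h.cont.finLevel h.test
  refine ⟨L, hL, fun σ hσ i j => ?_⟩
  have hd : r σ i j - (1 : Matrix (Fin 2) (Fin 2) (MvPowerSeries S O)) i j ∈
      RingHom.ker (psi S h) := by
    rw [RingHom.mem_ker, map_sub, hr, hL1 σ hσ, Matrix.one_apply, Matrix.one_apply]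
    split <;> simp
  obtain ⟨a, ha, b, hb, hab⟩ := Submodule.mem_sup.mp (hker hd)
  have e : (MR σ - 1) i j = Ideal.Quotient.mk (univKernel S N 𝒟)
      (r σ i j - (1 : Matrix (Fin 2) (Fin 2) (MvPowerSeries S O)) i j) := by
    rw [Matrix.sub_apply, hMR, map_sub, Matrix.one_apply, Matrix.one_apply]
    split <;> simp
  rw [e, ← hab, map_add, Ideal.Quotient.eq_zero_iff_mem.mpr ha, zero_add]
  have := IsLocalHom.of_surjective (Ideal.Quotient.mk (univKernel S N 𝒟))
    Ideal.Quotient.mk_surjective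
  refine Ideal.pow_right_mono ?_ n (Ideal.map_pow (Ideal.Quotient.mk (univKernel S N 𝒟))
    (maximalIdeal _) n ▸ Ideal.mem_map_of_mem _ hb)
  exact Ideal.map_le_iff_le_comap.mpr fun x hx => Ideal.mem_comap.mpr (map_nonunit _ x hx)

/-- The universal representation is of type `𝒟`. -/
private theorem cond_universalRep
    [IsAdicComplete (maximalIdeal (UnivDefRing S N 𝒟)) (UnivDefRing S N 𝒟)]
    (hloc : IsLocalHom (algebraMap O (UnivDefRing S N 𝒟)))
    (hRsurj : Function.Surjective
      (IsLocalRing.residue (UnivDefRing S N 𝒟) ∘ algebraMap O (UnivDefRing S N 𝒟)))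
    (hc : MatCont MR) : 𝒟 (ofMatrix MR hc) := by
  have := IsLocalHom.of_surjective (Ideal.Quotient.mk (univKernel S N 𝒟))
    Ideal.Quotient.mk_surjective
  rw [h𝒟.iff_forall_surjective hloc hRsurj]
  intro B _ _ _ hB q hq hqs
  obtain ⟨n, hn⟩ := exists_pow_maximalIdeal_eq_bot hB
  obtain ⟨A', _, _, _, M, h, hsurj, hker⟩ := exists_ker_psi_le_sup h𝒟 hS hM0 n
  let q' : MvPowerSeries S O →ₐ[O] B := q.comp (Ideal.Quotient.mkₐ O (univKernel S N 𝒟))
  have hkill : RingHom.ker (psi S h) ≤ RingHom.ker q' := by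
    refine hker.trans (sup_le (fun x hx => ?_) fun x hx => ?_)
    · rw [RingHom.mem_ker, AlgHom.comp_apply, Ideal.Quotient.mkₐ_eq_mk,
        Ideal.Quotient.eq_zero_iff_mem.mpr hx, map_zero]
    · rw [RingHom.mem_ker, ← Submodule.mem_bot B, ← hn]
      have hle : (maximalIdeal (MvPowerSeries S O)).map q' ≤ maximalIdeal B :=
        Ideal.map_le_iff_le_comap.mpr fun y hy => Ideal.mem_comap.mpr
          (haveI := hq; map_nonunit (q : UnivDefRing S N 𝒟 →+* B)
            (Ideal.Quotient.mk (univKernel S N 𝒟) y) (map_nonunit (Ideal.Quotient.mk _) y hy))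
      exact Ideal.pow_right_mono hle n (Ideal.map_pow q' _ n ▸ Ideal.mem_map_of_mem _ hx)
  let g : A' →ₐ[O] B := AlgHom.liftOfSurjective (psi S h) hsurj q' fun x hx => hkill hx
  have he : mapRep (q : _ →+* B) MR = mapRep (g : A' →+* B) M := by
    refine MonoidHom.ext fun σ => Matrix.ext fun i j => ?_
    rw [mapRep_apply, mapRep_apply, hMR, ← hr σ i j A' M h]
    exact (AlgHom.liftOfSurjective_apply (psi S h) hsurj q' (fun x hx => hkill hx) _).symm
  refine h𝒟.of_isEquiv hB (isEquiv_symm ?_) (DLift.map h𝒟 h hB g).cond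
  refine isEquiv_trans (isEquiv_baseChangeAlong_ofMatrix _ hq MR hc) ?_
  exact isEquiv_of_matRep_eq (stdBasis _ _) (stdBasis _ _)
    (by rw [matRep_ofMatrix, matRep_ofMatrix, he])

omit [IsNoetherianRing O] [IsPrecomplete (maximalIdeal O) O] in
/-- Local maps out of the universal ring are determined by their values on the universal entries. -/
private theorem algHom_ext_universal [IsHausdorff (maximalIdeal A) A]
    {φ φ' : UnivDefRing S N 𝒟 →ₐ[O] A} (hφ : IsLocalHom (φ : UnivDefRing S N 𝒟 →+* A))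
    (h : mapRep (φ : UnivDefRing S N 𝒟 →+* A) MR = mapRep (φ' : UnivDefRing S N 𝒟 →+* A) MR) :
    φ = φ' := by
  have := IsLocalHom.of_surjective (Ideal.Quotient.mk (univKernel S N 𝒟))
    Ideal.Quotient.mk_surjective
  have hX : ∀ s : S, Ideal.Quotient.mk (univKernel S N 𝒟) (MvPowerSeries.X s) =
      MR s.1.1 s.1.2.1 s.1.2.2 - algebraMap O _ (N.r0 s.1.1 s.1.2.1 s.1.2.2) := fun s => by
    rw [hMR, ← Ideal.Quotient.mk_algebraMap, ← map_sub]
    refine (mk_eq_mk_iff h𝒟 hS hM0 _ _).mpr fun B _ _ _ M h => ?_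
    rw [psi_X, map_sub, hr, AlgHom.commutes]
    rfl
  have hcomp : φ.comp (Ideal.Quotient.mkₐ O (univKernel S N 𝒟)) =
      φ'.comp (Ideal.Quotient.mkₐ O (univKernel S N 𝒟)) := by
    refine algHom_ext_of_hausdorff (maximalIdeal A) _ _ (fun s => ?_) fun s => ?_
    · exact map_nonunit (φ : UnivDefRing S N 𝒟 →+* A) _
        (map_nonunit (Ideal.Quotient.mk (univKernel S N 𝒟)) _ (X_mem_maximalIdeal s))
    · rw [AlgHom.comp_apply, AlgHom.comp_apply, Ideal.Quotient.mkₐ_eq_mk, hX, map_sub, map_sub,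
        AlgHom.commutes, AlgHom.commutes]
      exact congr_arg (· - _) (congr_fun (congr_fun (DFunLike.congr_fun h _) _) _)
  refine AlgHom.ext fun z => ?_
  obtain ⟨p, rfl⟩ := Ideal.Quotient.mk_surjective z
  exact DFunLike.congr_fun hcomp p

end UniversalRep

omit h𝒟 hS hM0

omit [Finite (ResidueField O)] [Algebra O (DualNumber (ResidueField O))] [IsNoetherianRing O]
  [IsPrecomplete (maximalIdeal O) O] in
/-- A local quotient of `O⟦X⟧` has the residue field of `O`. -/
private theorem residue_algebraMap_surjective_quotient (J : Ideal (MvPowerSeries S O))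
    [IsLocalRing (MvPowerSeries S O ⧸ J)] :
    Function.Surjective
      (IsLocalRing.residue (MvPowerSeries S O ⧸ J) ∘ algebraMap O (MvPowerSeries S O ⧸ J)) := by
  have := IsLocalHom.of_surjective (Ideal.Quotient.mk J) Ideal.Quotient.mk_surjective
  intro y
  obtain ⟨z, rfl⟩ := IsLocalRing.residue_surjective y
  obtain ⟨p, rfl⟩ := Ideal.Quotient.mk_surjective z
  obtain ⟨c, hc⟩ := residue_algebraMap_surjective_mvPowerSeries (IsLocalRing.residue _ p)
  refine ⟨c, ?_⟩
  simp only [Function.comp_apply] at hc ⊢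
  rw [← sub_eq_zero, ← map_sub, residue_eq_zero_iff] at hc ⊢
  rw [← Ideal.Quotient.mk_algebraMap, ← map_sub]
  exact map_nonunit (Ideal.Quotient.mk J) _ hc

omit [Finite (ResidueField O)] [Algebra O (DualNumber (ResidueField O))] [IsNoetherianRing O]
  [IsPrecomplete (maximalIdeal O) O] in
/-- A map out of a quotient of `O⟦X⟧` sending the variables into the maximal ideal is local. -/
private theorem isLocalHom_of_mk_X_mem [IsLocalHom (algebraMap O A)]
    {J : Ideal (MvPowerSeries S O)} (φ : (MvPowerSeries S O ⧸ J) →ₐ[O] A)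
    (hX : ∀ s, φ (Ideal.Quotient.mk J (MvPowerSeries.X s)) ∈ maximalIdeal A) :
    IsLocalHom (φ : (MvPowerSeries S O ⧸ J) →+* A) := by
  refine ⟨fun z hz => ?_⟩
  by_contra hu
  obtain ⟨p, rfl⟩ := Ideal.Quotient.mk_surjective z
  have hp : MvPowerSeries.constantCoeff p ∈ maximalIdeal O :=
    (mem_maximalIdeal_iff_constantCoeff p).mp ((mem_maximalIdeal _).mpr fun hp => hu (hp.map _))
  have hsub : p - algebraMap O _ (MvPowerSeries.constantCoeff p) ∈
      Ideal.span (Set.range (MvPowerSeries.X : S → MvPowerSeries S O)) ^ 1 := by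
    refine mem_span_X_pow fun x hx => ?_
    have : x = 0 := (Finsupp.degree_eq_zero_iff x).mp (by omega)
    subst this
    simp [MvPowerSeries.algebraMap_apply]
  have h1 := mem_pow_of_algHom (maximalIdeal A) (φ.comp (Ideal.Quotient.mkₐ O J)) hX 1 _ hsub
  rw [pow_one, map_sub, AlgHom.commutes] at h1
  have h2 := add_mem h1 (map_nonunit (algebraMap O A) _ hp)
  rw [sub_add_cancel] at h2
  exact h2 hz

/-- Elements of a separated local ring congruent modulo all powers of its ideal are equal. -/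
private theorem eq_of_forall_mk_pow_succ_eq {A : Type} [CommRing A] [IsLocalRing A]
    [IsHausdorff (maximalIdeal A) A] {x y : A}
    (hxy : ∀ n, Ideal.Quotient.mk (maximalIdeal A ^ (n + 1)) x =
      Ideal.Quotient.mk (maximalIdeal A ^ (n + 1)) y) : x = y := by
  rw [← sub_eq_zero]
  refine IsHausdorff.haus (I := maximalIdeal A) inferInstance _ fun n => ?_
  rw [SModEq.zero, smul_eq_mul, Ideal.mul_top]
  exact Ideal.pow_le_pow_right n.le_succ (Ideal.Quotient.eq.mp (hxy n))

omit [IsLocalRing O] [Finite (ResidueField O)] [Algebra O (DualNumber (ResidueField O))]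
  [IsNoetherianRing O] [IsPrecomplete (maximalIdeal O) O] in
/-- Values in the maximal ideal of a complete algebra define a map out of `O⟦X⟧`. -/
private theorem exists_algHom_X_eq {ι : Type} [Finite ι] [IsAdicComplete (maximalIdeal A) A]
    (a : ι → A) (ha : ∀ i, a i ∈ maximalIdeal A) :
    ∃ φ : MvPowerSeries ι O →ₐ[O] A, ∀ i, φ (MvPowerSeries.X i) = a i := by
  have hmI : ∀ n, (maximalIdeal A).map (Ideal.Quotient.mk (maximalIdeal A ^ n)) ^ n = ⊥ :=
    fun n => map_mk_pow_eq_bot _ n
  let f : ∀ n, MvPowerSeries ι O →ₐ[O] A ⧸ maximalIdeal A ^ n := fun n =>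
    evalNilp _ n (hmI n) (fun i => Ideal.Quotient.mk _ (a i))
      (fun i => Ideal.mem_map_of_mem _ (ha i))
  have hfX : ∀ n i, f n (MvPowerSeries.X i) = Ideal.Quotient.mk _ (a i) :=
    fun n i => evalNilp_X _ _ _ _ _ i
  have hf : ∀ {m n : ℕ} (hle : m ≤ n),
      (Ideal.Quotient.factorₐ O (Ideal.pow_le_pow_right hle)).comp (f n) = f m := by
    intro m n hle
    have := isHausdorff_of_pow_eq_bot _ m (hmI m)
    refine algHom_ext_of_hausdorff
      ((maximalIdeal A).map (Ideal.Quotient.mk (maximalIdeal A ^ m))) _ _ ?_ ?_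
    · intro i
      rw [AlgHom.comp_apply, hfX]
      exact Ideal.mem_map_of_mem _ (ha i)
    · intro i
      rw [AlgHom.comp_apply, hfX, hfX]
      rfl
  exact ⟨IsAdicComplete.liftAlgHom (maximalIdeal A) f hf, fun i =>
    eq_of_forall_mk_pow_succ_eq fun n =>
      (IsAdicComplete.mk_liftAlgHom (maximalIdeal A) f hf _ _).trans (hfX _ i)⟩

omit [Algebra O (DualNumber (ResidueField O))] [IsNoetherianRing O]
  [IsPrecomplete (maximalIdeal O) O] in
/-- The reductions of a normal model of a deformation are deformations to test algebras. -/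
private theorem exists_dLift_quotient_pow (h𝒟 : IsDeformationCondition O 𝒟) [IsNoetherianRing A]
    [IsAdicComplete (maximalIdeal A) A] [hl : IsLocalHom (algebraMap O A)]
    (hs : Function.Surjective (IsLocalRing.residue A ∘ algebraMap O A)) {ρA : GaloisRepAdic A}
    (hDA : 𝒟 ρA) {MA : MatRep A} {hcA : MatCont MA} (hred : Reduces N MA) (hn : IsNormal N MA)
    (heρ : ρA.IsEquiv (ofMatrix MA hcA)) (n : ℕ) :
    ∃ _ : IsLocalRing (A ⧸ maximalIdeal A ^ (n + 1)), DLift N 𝒟 _
      (mapRep (Ideal.Quotient.mkₐ O (maximalIdeal A ^ (n + 1)) :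
        A →+* A ⧸ maximalIdeal A ^ (n + 1)) MA) := by
  obtain ⟨hQl, hQ⟩ := isTestAlgebra_quotient_pow (O := O) (A := A) hl hs n
  let π := Ideal.Quotient.mkₐ O (maximalIdeal A ^ (n + 1))
  have hπ : IsLocalHom (π : A →+* A ⧸ maximalIdeal A ^ (n + 1)) :=
    IsLocalHom.of_surjective _ Ideal.Quotient.mk_surjective
  refine ⟨hQl, hQ, hred.map N π hπ, hn.map N π, hcA.map _ hπ, ?_⟩
  refine h𝒟.of_isEquiv hQ ?_ ((h𝒟.iff_forall_surjective hl hs ρA).mp hDA hQ π hπ
    Ideal.Quotient.mk_surjective)
  refine isEquiv_trans ?_ (isEquiv_baseChangeAlong_ofMatrix _ hπ MA hcA)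
  obtain ⟨e⟩ := heρ
  exact ⟨e.baseChangeAlong _ hπ⟩

include h𝒟 hS hM0 in
omit [IsPrecomplete (maximalIdeal O) O] [IsNoetherianRing O] in
/-- The normal model of a deformation is the image of the universal one under a local map. -/
private theorem exists_classifyingMap {r : AbsGal → Fin 2 → Fin 2 → MvPowerSeries S O}
    (hr : ∀ σ i j (A : Type) [CommRing A] [IsLocalRing A] [Algebra O A] (M : MatRep A)
      (h : DLift N 𝒟 A M), psi S h (r σ i j) = M σ i j)
    {MR : MatRep (UnivDefRing S N 𝒟)}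
    (hMR : ∀ σ i j, MR σ i j = Ideal.Quotient.mk (univKernel S N 𝒟) (r σ i j))
    [IsNoetherianRing A] [IsAdicComplete (maximalIdeal A) A] [IsLocalHom (algebraMap O A)]
    (hs : Function.Surjective (IsLocalRing.residue A ∘ algebraMap O A)) {ρA : GaloisRepAdic A}
    (hDA : 𝒟 ρA) {MA : MatRep A} {hcA : MatCont MA} (hred : Reduces N MA) (hn : IsNormal N MA)
    (heρ : ρA.IsEquiv (ofMatrix MA hcA)) :
    ∃ φ : UnivDefRing S N 𝒟 →ₐ[O] A, IsLocalHom (φ : UnivDefRing S N 𝒟 →+* A) ∧
      mapRep (φ : UnivDefRing S N 𝒟 →+* A) MR = MA := by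
  obtain ⟨φ0, hφ0X⟩ :=
    exists_algHom_X_eq (O := O) (fun s : S => coord S N MA s) (fun _ => hred _ _ _)
  choose hloc hl using exists_dLift_quotient_pow h𝒟 hs hDA hred hn heρ
  have hψ : ∀ n, (Ideal.Quotient.mkₐ O (maximalIdeal A ^ (n + 1))).comp φ0 = psi S (hl n) :=
    fun n => psi_unique S (hl n) _ fun s => by
      rw [AlgHom.comp_apply, hφ0X]
      simp [coord, mapRep_apply]
  have hφJ : ∀ p ∈ univKernel S N 𝒟, φ0 p = 0 := fun p hp =>
    eq_of_forall_mk_pow_succ_eq fun n => by
      rw [map_zero]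
      exact (DFunLike.congr_fun (hψ n) p).trans
        ((mem_univKernel_iff h𝒟 hS hM0 p).mp hp _ _ (hl n))
  let φ : UnivDefRing S N 𝒟 →ₐ[O] A := Ideal.Quotient.liftₐ (univKernel S N 𝒟) φ0 hφJ
  have hφmk : ∀ p, φ (Ideal.Quotient.mk (univKernel S N 𝒟) p) = φ0 p := fun p => rfl
  refine ⟨φ, isLocalHom_of_mk_X_mem φ fun s => ?_,
    MonoidHom.ext fun σ => Matrix.ext fun i j => ?_⟩
  · rw [hφmk, hφ0X]
    exact hred _ _ _
  · rw [mapRep_apply, hMR]
    refine (hφmk _).trans (eq_of_forall_mk_pow_succ_eq fun n => ?_)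
    exact (DFunLike.congr_fun (hψ n) _).trans (hr σ i j _ _ (hl n))

omit [Finite (ResidueField O)] [Algebra O (DualNumber (ResidueField O))] [IsNoetherianRing O]
  [IsPrecomplete (maximalIdeal O) O] in
/-- A lift of the residual representation has a normal model. -/
private theorem exists_normalModel (ρbar : ResidualGaloisRep (ResidueField O))
    (bb : Module.Basis (Fin 2) (ResidueField O) ρbar.V)
    (hr0 : ∀ σ i j, IsLocalRing.residue O (N.r0 σ i j) = resMatRep ρbar bb σ i j)
    [IsAdicComplete (maximalIdeal A) A] [IsLocalHom (algebraMap O A)] (ρA : GaloisRepAdic A)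
    (hresA : ρA.residual.IsEquiv
      (ρbar.baseChangeAlong (ResidueField.map (algebraMap O A)))) :
    ∃ (MA : MatRep A) (hcA : MatCont MA), Reduces N MA ∧ IsNormal N MA ∧
      ρA.IsEquiv (ofMatrix MA hcA) := by
  obtain ⟨b, hb⟩ := exists_basis_of_residual_isEquiv _ ρbar bb ρA hresA
  have hred1 : Reduces N (matRep ρA b) := by
    rw [Reduces.iff_residue]
    intro σ i j
    have := congr_fun (congr_fun (DFunLike.congr_fun hb σ) i) j
    rwa [mapRep_apply, mapRep_apply, ← hr0, ResidueField.map_residue] at this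
  obtain ⟨MA, hcA, hredA, hnA, heA⟩ := exists_isNormal N (matCont_matRep ρA b) hred1
  exact ⟨MA, hcA, hredA, hnA, isEquiv_trans (isEquiv_ofMatrix_matRep ρA b) heA⟩

omit [Finite (ResidueField O)] [Algebra O (DualNumber (ResidueField O))] [IsNoetherianRing O]
  [IsPrecomplete (maximalIdeal O) O] in
/-- A local map into the equivalence class of a normal model maps onto that model. -/
private theorem mapRep_eq_of_isEquiv {B : Type} [CommRing B] [IsLocalRing B] [Algebra O B]
    [IsLocalHom (algebraMap O A)] {M : MatRep B} {hc : MatCont M} (hred : Reduces N M)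
    (hn : IsNormal N M) {MA : MatRep A} {hcA : MatCont MA} (hredA : Reduces N MA)
    (hnA : IsNormal N MA) {ρA : GaloisRepAdic A} (heρ : ρA.IsEquiv (ofMatrix MA hcA))
    (φ : B →ₐ[O] A) (hφ : IsLocalHom (φ : B →+* A))
    (heq : ((ofMatrix M hc).baseChangeAlong (φ : B →+* A) hφ).IsEquiv ρA) :
    mapRep (φ : B →+* A) M = MA := by
  have he : (ofMatrix (mapRep (φ : B →+* A) M) (hc.map _ hφ)).IsEquiv (ofMatrix MA hcA) :=
    isEquiv_trans (isEquiv_symm (isEquiv_baseChangeAlong_ofMatrix _ hφ M hc))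
      (isEquiv_trans heq heρ)
  obtain ⟨P, hP, hint⟩ := exists_conj_of_isEquiv _ _ he
  exact eq_of_conj_of_isNormal N (hred.map N φ hφ) hredA (hn.map N φ) hnA P hP hint

/-- Existence of the universal deformation ring, from a normalisation and a separating set. -/
theorem nonempty_deformationRingData_of {O : Type} [CommRing O] [IsDomain O]
    [IsDiscreteValuationRing O] [IsAdicComplete (maximalIdeal O) O] [Finite (ResidueField O)]
    [Algebra O (DualNumber (ResidueField O))]
    {N : NormData O}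
    {𝒟 : ∀ ⦃A : Type⦄ [CommRing A] [IsLocalRing A] [Algebra O A], GaloisRepAdic A → Prop}
    {S : Finset (AbsGal × Fin 2 × Fin 2)}
    (h𝒟 : IsDeformationCondition O 𝒟) (hS : Separates S N 𝒟)
    {M0 : MatRep (ResidueField O)} (hM0 : DLift N 𝒟 (ResidueField O) M0)
    (ρbar : ResidualGaloisRep (ResidueField O)) (habs : ρbar.IsAbsolutelyIrreducible)
    (bb : Module.Basis (Fin 2) (ResidueField O) ρbar.V)
    (hr0 : ∀ σ i j, IsLocalRing.residue O (N.r0 σ i j) = resMatRep ρbar bb σ i j) :
    Nonempty (DeformationRingData O ρbar 𝒟) := by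
  classical
  have hΛfin : Finite (ResidueField (MvPowerSeries S O)) :=
    finite_residueField_of_surjective (O := O) residue_algebraMap_surjective_mvPowerSeries
  -- the ring
  have : Nontrivial (UnivDefRing S N 𝒟) := Ideal.Quotient.nontrivial_iff.mpr fun h =>
    (maximalIdeal.isMaximal _).ne_top
      (eq_top_iff.mpr (h ▸ univKernel_le_maximalIdeal h𝒟 hS hM0))
  have : IsLocalRing (UnivDefRing S N 𝒟) :=
    IsLocalRing.of_surjective' (Ideal.Quotient.mk _) Ideal.Quotient.mk_surjective
  have hloc : IsLocalHom (Ideal.Quotient.mk (univKernel S N 𝒟)) :=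
    IsLocalHom.of_surjective _ Ideal.Quotient.mk_surjective
  have hlocO : IsLocalHom (algebraMap O (UnivDefRing S N 𝒟)) :=
    ⟨fun c hc => by
      rw [← Ideal.Quotient.mk_algebraMap] at hc
      exact isUnit_of_map_unit (algebraMap O (MvPowerSeries S O)) c (hloc.map_nonunit _ hc)⟩
  have : IsLocalHom (algebraMap (MvPowerSeries S O) (UnivDefRing S N 𝒟)) := hloc
  have : IsAdicComplete (maximalIdeal (UnivDefRing S N 𝒟)) (UnivDefRing S N 𝒟) :=
    IsLocalRing.isAdicComplete_of_module_finite (𝒪 := MvPowerSeries S O)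
  have hRsurj := residue_algebraMap_surjective_quotient (univKernel S N 𝒟)
  -- the universal representation
  choose r hr using exists_universal_entry h𝒟 hS hM0
  obtain ⟨MR, hMR⟩ := exists_universalRep h𝒟 hS hM0 hr
  have hredR := reduces_universalRep hM0 hr hMR
  have hnormR := isNormal_universalRep h𝒟 hS hM0 hr hMR
  have hcR := matCont_universalRep h𝒟 hS hM0 hr hMR
  have hresR : (ofMatrix MR hcR).residual.IsEquiv (ρbar.baseChangeAlong
      (ResidueField.map (algebraMap O (UnivDefRing S N 𝒟)))) := by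
    refine residual_isEquiv_of_eq _ ρbar bb MR hcR ?_
    refine MonoidHom.ext fun σ => Matrix.ext fun i j => ?_
    rw [mapRep_apply, mapRep_apply, ← hr0, ResidueField.map_residue]
    exact (Reduces.iff_residue N MR).mp hredR σ i j
  refine ⟨{ R := UnivDefRing S N 𝒟
            residue_surjective := hRsurj
            absIrr := habs
            ρ := ofMatrix MR hcR
            isOfType := cond_universalRep h𝒟 hS hM0 hr hMR hlocO hRsurj hcR
            residual_isEquiv := hresR
            universal := ?_ }⟩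
  intro A _ _ _ _ _ _ hs ρA hDA hresA
  -- a deformation has a normal model, which is classified by a unique map
  obtain ⟨MA, hcA, hredA, hnA, heρ⟩ := exists_normalModel ρbar bb hr0 ρA hresA
  obtain ⟨φ, hφ, rfl⟩ := exists_classifyingMap h𝒟 hS hM0 hr hMR hs hDA hredA hnA heρ
  refine ⟨φ, ⟨hφ, isEquiv_trans (isEquiv_baseChangeAlong_ofMatrix _ hφ MR hcR)
    (isEquiv_symm heρ)⟩, ?_⟩
  rintro φ' ⟨hφ', heq⟩
  exact algHom_ext_universal h𝒟 hS hM0 hr hMR hφ'
    (mapRep_eq_of_isEquiv hredR hnormR hredA hnA heρ φ' hφ' heq)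

end FLTAgent.DefRing
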