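import Mathlib.FieldTheory.IsAlgClosed.AlgebraicClosure
import Mathlib.LinearAlgebra.Dimension.Free
import Fermat.Agent.DefRing.Burnside
import Fermat.Agent.DefRing.Universal

/-!
# Normalisation data and the residual point

An absolutely irreducible residual representation spans the matrix algebra
(`span_resMatRep_eq_top`), so normalisation data exist (`exists_normData`), and it is itself a
normalised deformation to the residue field (`dLift_residual`).  With `DefRing.Universal` this
gives the existence of the universal deformation ring.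
-/

set_option autoImplicit false

open IsLocalRing GaloisRep Matrix Module

noncomputable section

namespace FLTAgent.DefRing

variable {O : Type} [CommRing O] [IsLocalRing O]

theorem span_resMatRep_eq_top {k : Type} [Field k] (ρ : ResidualGaloisRep k)
    (habs : ρ.IsAbsolutelyIrreducible) (b : Basis (Fin 2) k ρ.V) :
    Submodule.span k (Set.range (resMatRep ρ b)) = ⊤ := by
  let i := algebraMap k (AlgebraicClosure k)
  refine span_range_eq_top i (resMatRep ρ b) fun v hv hinv => ?_
  let b' : Basis (Fin 2) (AlgebraicClosure k) (ρ.baseChange (AlgebraicClosure k)).V :=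
    Algebra.TensorProduct.basis (AlgebraicClosure k) b
  let w := b'.equivFun.symm v
  have hw : ∀ σ, ∃ c : AlgebraicClosure k,
      (ρ.baseChange (AlgebraicClosure k)).ρ σ w = c • w := by
    intro σ
    obtain ⟨c, hc⟩ := hinv σ
    refine ⟨c, b'.equivFun.injective ?_⟩
    rw [map_smul, show b'.equivFun w = v from b'.equivFun.apply_symm_apply v, ← hc]
    have h1 : LinearMap.toMatrix b' b' ((ρ.baseChange (AlgebraicClosure k)).ρ σ) =
        (resMatRep ρ b σ).map i := by
      exact LinearMap.toMatrix_baseChange (AlgebraicClosure k) (ρ.ρ σ) b b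
    rw [← h1]
    have h2 : ⇑(b'.repr w) = v := b'.equivFun.apply_symm_apply v
    rw [← h2, LinearMap.toMatrix_mulVec_repr]
    rfl
  have hw0 : w ≠ 0 := fun h => hv (by
    have h3 := congr_arg b'.equivFun h
    rw [LinearEquiv.apply_symm_apply, map_zero] at h3
    exact h3)
  rcases habs (Submodule.span (AlgebraicClosure k) {w}) (fun σ x hx => by
    obtain ⟨a, rfl⟩ := Submodule.mem_span_singleton.mp hx
    obtain ⟨c, hc⟩ := hw σ
    rw [map_smul, hc, smul_smul]
    exact Submodule.smul_mem _ _ (Submodule.mem_span_singleton_self w)) with h | h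
  · exact hw0 (Submodule.span_singleton_eq_bot.mp h)
  · have h1 := finrank_span_singleton (K := AlgebraicClosure k) hw0
    rw [h, finrank_top, (ρ.baseChange (AlgebraicClosure k)).finrank_eq] at h1
    omega

/-- The matrices of an absolutely irreducible residual representation have no common eigenvector. -/
theorem no_common_eigenvector {k : Type} [Field k] (ρbar : ResidualGaloisRep k)
    (habs : ρbar.IsAbsolutelyIrreducible) (b : Basis (Fin 2) k ρbar.V) (v : Fin 2 → k)
    (hv : v ≠ 0) :
    ¬ ∀ g, ∃ l : k, Matrix.mulVec (resMatRep ρbar b g) v = l • v := by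
  intro hcon
  have hspan := span_resMatRep_eq_top ρbar habs b
  obtain ⟨i, hi⟩ : ∃ i, v i ≠ 0 := by
    by_contra h; push Not at h; exact hv (funext h)
  have key : ∀ M : Matrix (Fin 2) (Fin 2) k, ∃ a : k, M.mulVec v = a • v := by
    intro M
    have hM : M ∈ Submodule.span k (Set.range (resMatRep ρbar b)) :=
      hspan ▸ Submodule.mem_top
    induction hM using Submodule.span_induction with
    | mem x hx => obtain ⟨σ, rfl⟩ := hx; exact hcon σ
    | zero => exact ⟨0, by simp⟩
    | add x y _ _ hx hy =>
      obtain ⟨a, ha⟩ := hx; obtain ⟨c, hc⟩ := hy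
      exact ⟨a + c, by rw [Matrix.add_mulVec, ha, hc, add_smul]⟩
    | smul a x _ hx =>
      obtain ⟨c, hc⟩ := hx
      exact ⟨a * c, by rw [Matrix.smul_mulVec, hc, smul_smul]⟩
  obtain ⟨a, ha⟩ := key (Matrix.single (1 - i) i 1)
  have e1 := congr_fun ha (1 - i)
  have e2 := congr_fun ha i
  have hne : 1 - i ≠ i := by fin_cases i <;> decide
  simp [Matrix.single_mulVec, hne.symm, hi] at e1 e2
  simp [e2] at e1
  exact hi e1

/-- A normalisation exists for an absolutely irreducible representation. -/
theorem exists_normData (ρbar : ResidualGaloisRep (ResidueField O))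
    (habs : ρbar.IsAbsolutelyIrreducible) (bb : Basis (Fin 2) (ResidueField O) ρbar.V) :
    ∃ N : NormData O, ∀ σ i j, IsLocalRing.residue O (N.r0 σ i j) = resMatRep ρbar bb σ i j := by
  classical
  choose sec hsec using IsLocalRing.residue_surjective (R := O)
  let r0 : AbsGal → Matrix (Fin 2) (Fin 2) O := fun σ => (resMatRep ρbar bb σ).map sec
  have hr0 : ∀ σ i j, IsLocalRing.residue O (r0 σ i j) = resMatRep ρbar bb σ i j :=
    fun σ i j => hsec _
  have hcomb : ∀ E : Matrix (Fin 2) (Fin 2) O, ∃ c : AbsGal →₀ O,
      ∀ i j, comb c r0 i j - E i j ∈ maximalIdeal O := by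
    intro E
    have hE : E.map (IsLocalRing.residue O) ∈
        Submodule.span (ResidueField O) (Set.range (resMatRep ρbar bb)) :=
      (span_resMatRep_eq_top ρbar habs bb) ▸ Submodule.mem_top
    obtain ⟨c, hc⟩ := Finsupp.mem_span_range_iff_exists_finsupp.mp hE
    let c' : AbsGal →₀ O := Finsupp.onFinset c.support
      (fun σ => if σ ∈ c.support then sec (c σ) else 0)
      (fun σ hσ => by
        by_contra h
        exact hσ (if_neg h))
    refine ⟨c', fun i j => ?_⟩
    rw [← residue_eq_zero_iff, map_sub, sub_eq_zero]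
    have e1 : comb c' r0 i j = ∑ σ ∈ c.support, sec (c σ) * r0 σ i j := by
      rw [comb, Finsupp.sum_of_support_subset c' (Finsupp.support_onFinset_subset) _
        (fun σ _ => zero_smul O (r0 σ)), Matrix.sum_apply]
      refine Finset.sum_congr rfl fun σ hσ => ?_
      rw [Finsupp.onFinset_apply, if_pos hσ]
      rfl
    rw [e1, map_sum]
    simp only [map_mul, hsec, hr0]
    have := congr_fun (congr_fun hc i) j
    rw [Finsupp.sum, Matrix.sum_apply] at this
    exact this
  obtain ⟨cX, hX⟩ := hcomb (Matrix.single 0 0 1)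
  obtain ⟨cY, hY⟩ := hcomb (Matrix.single 1 0 1)
  exact ⟨⟨r0, cX, cY, hX, hY⟩, hr0⟩

/-- The residual representation is a normalised deformation to the residue field. -/
theorem dLift_residual [Finite (ResidueField O)] {N : NormData O}
    {𝒟 : ∀ ⦃A : Type⦄ [CommRing A] [IsLocalRing A] [Algebra O A], GaloisRepAdic A → Prop}
    (h𝒟 : IsDeformationCondition O 𝒟) (ρbar : ResidualGaloisRep (ResidueField O))
    (bb : Basis (Fin 2) (ResidueField O) ρbar.V)
    (hr0 : ∀ σ i j, IsLocalRing.residue O (N.r0 σ i j) = resMatRep ρbar bb σ i j)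
    (hbar : 𝒟 (GaloisRepAdic.ofResidualGaloisRep ρbar)) :
    DLift N 𝒟 (ResidueField O) (resMatRep ρbar bb) := by
  have hc : MatCont (resMatRep ρbar bb) :=
    matCont_matRep (GaloisRepAdic.ofResidualGaloisRep ρbar) bb
  refine ⟨isTestAlgebra_residueField, fun σ i j => ?_, ?_, hc, ?_⟩
  · rw [show algebraMap O (ResidueField O) (N.r0 σ i j) = _ from hr0 σ i j, sub_self]
    exact zero_mem _
  · have key : ∀ (c : AbsGal →₀ O) (i j : Fin 2),
        comb c (resMatRep ρbar bb) i j = IsLocalRing.residue O (comb c N.r0 i j) := by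
      intro c i j
      rw [comb_apply, comb_apply, map_sum]
      simp only [map_mul, hr0]
      rfl
    have h0 : ∀ (c : AbsGal →₀ O) (E : Matrix (Fin 2) (Fin 2) O),
        (∀ i j, comb c N.r0 i j - E i j ∈ maximalIdeal O) → ∀ i j,
          comb c (resMatRep ρbar bb) i j = IsLocalRing.residue O (E i j) := by
      intro c E hE i j
      have := (residue_eq_zero_iff _).mpr (hE i j)
      rw [map_sub, sub_eq_zero] at this
      rw [key, this]
    refine ⟨?_, ?_, ?_⟩
    · rw [h0 _ _ N.hX]; simp
    · rw [h0 _ _ N.hY]; simp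
    · rw [h0 _ _ N.hY]; simp
  · refine h𝒟.of_isEquiv isTestAlgebra_residueField ?_ hbar
    exact isEquiv_ofMatrix_matRep (GaloisRepAdic.ofResidualGaloisRep ρbar) bb

end FLTAgent.DefRing
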