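import Fermat.Agent.DefRing.Setup

/-!
# Existence of the universal deformation ring

A deformation condition with finite tangent space has finitely many normalised deformations to
the dual numbers, so finitely many matrix entries separate them (`exists_separates`).  With
`DefRing.Setup` and `DefRing.Universal` this gives `nonempty_deformationRingData`.
-/

set_option autoImplicit false

open IsLocalRing GaloisRep

noncomputable section

namespace FLTAgent.DefRing

/-- A finite tangent space gives a finite set of entries separating tangent vectors. -/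
theorem exists_separates {O : Type} [CommRing O] [IsLocalRing O] {N : NormData O}
    {𝒟 : ∀ ⦃A : Type⦄ [CommRing A] [IsLocalRing A] [Algebra O A], GaloisRepAdic A → Prop}
    (ρbar : ResidualGaloisRep (ResidueField O))
    (bb : Module.Basis (Fin 2) (ResidueField O) ρbar.V)
    (hr0 : ∀ σ i j, IsLocalRing.residue O (N.r0 σ i j) = resMatRep ρbar bb σ i j)
    (hfin : TangentFinite O ρbar 𝒟) :
    letI : Algebra O (DualNumber (ResidueField O)) :=
      ((algebraMap (ResidueField O) (DualNumber (ResidueField O))).comp
        (algebraMap O (ResidueField O))).toAlgebra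
    ∃ S, Separates S N 𝒟 := by
  classical
  let k := ResidueField O
  let _instO : Algebra O (DualNumber k) :=
    ((algebraMap k (DualNumber k)).comp (algebraMap O k)).toAlgebra
  let _instk : Algebra k (ResidueField (DualNumber k)) :=
    ((IsLocalRing.residue (DualNumber k)).comp (algebraMap k (DualNumber k))).toAlgebra
  let T := {M : MatRep (DualNumber k) // DLift N 𝒟 (DualNumber k) M}
  have : Finite T := by
    unfold TangentFinite at hfin
    refine @Finite.of_injective T _ hfin (fun M : T =>
      Quotient.mk _ (⟨ofMatrix M.1 M.2.cont, M.2.cond, ?_⟩ : {ρ : GaloisRepAdic (DualNumber k) //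
        𝒟 ρ ∧ ρ.residual.IsEquiv (ρbar.baseChange (ResidueField (DualNumber k)))})) ?_
    · refine residual_isEquiv_of_eq ((IsLocalRing.residue (DualNumber k)).comp
        (algebraMap k (DualNumber k))) ρbar bb M.1 _ ?_
      refine MonoidHom.ext fun σ => Matrix.ext fun i j => ?_
      rw [mapRep_apply, mapRep_apply, (Reduces.iff_residue N M.1).mp M.2.reduces σ i j, ← hr0]
      rfl
    · intro M M' he
      have heq : (ofMatrix M.1 M.2.cont).IsEquiv (ofMatrix M'.1 M'.2.cont) := Quotient.exact he
      obtain ⟨P, hP, hint⟩ := exists_conj_of_isEquiv _ _ heq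
      have := M.2.test.isLocalHom
      exact Subtype.ext
        (eq_of_conj_of_isNormal N M.2.reduces M'.2.reduces M.2.normal M'.2.normal P hP hint)
  have hd : ∀ p : T × T, ∃ t : AbsGal × Fin 2 × Fin 2,
      p.1.1 t.1 t.2.1 t.2.2 = p.2.1 t.1 t.2.1 t.2.2 → p.1 = p.2 := by
    intro p
    by_contra h
    push Not at h
    exact (h ⟨1, 0, 0⟩).2 (Subtype.ext (MonoidHom.ext fun σ =>
      Matrix.ext fun i j => (h ⟨σ, i, j⟩).1))
  choose F hF using hd
  refine ⟨(Set.finite_range F).toFinset, ⟨fun c => rfl, fun M M' hM hM' hagree => ?_⟩⟩
  exact congr_arg Subtype.val (hF (⟨M, hM⟩, ⟨M', hM'⟩) (hagree _ (by simp)))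

/-- An absolutely irreducible residual representation has a universal deformation ring for every
deformation condition with finite tangent space. -/
theorem nonempty_deformationRingData {O : Type} [CommRing O] [IsDomain O]
    [IsDiscreteValuationRing O] [IsAdicComplete (maximalIdeal O) O] [Finite (ResidueField O)]
    (ρbar : ResidualGaloisRep (ResidueField O))
    (𝒟 : ∀ ⦃A : Type⦄ [CommRing A] [IsLocalRing A] [Algebra O A], GaloisRepAdic A → Prop)
    (habs : ρbar.IsAbsolutelyIrreducible) (h𝒟 : IsDeformationCondition O 𝒟)
    (hbar : 𝒟 (GaloisRepAdic.ofResidualGaloisRep ρbar)) (hfin : TangentFinite O ρbar 𝒟) :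
    Nonempty (DeformationRingData O ρbar 𝒟) := by
  let _instO : Algebra O (DualNumber (ResidueField O)) :=
    ((algebraMap (ResidueField O) (DualNumber (ResidueField O))).comp
      (algebraMap O (ResidueField O))).toAlgebra
  let bb := Module.finBasisOfFinrankEq (ResidueField O) ρbar.V ρbar.finrank_eq
  obtain ⟨N, hr0⟩ := exists_normData ρbar habs bb
  obtain ⟨S, hS⟩ := exists_separates ρbar bb hr0 hfin
  exact nonempty_deformationRingData_of h𝒟 hS (dLift_residual h𝒟 ρbar bb hr0 hbar) ρbar habs bb
    hr0

end FLTAgent.DefRing
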